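import Mathlib
import Fermat.Agent.LT.T7.H298.MatchQCut
import Fermat.Agent.LT.T7.H159.HaarSplit305
import Fermat.Agent.LT.T7.H973.RestrGLQ

/-!
# Row LT, tower T7, quadratic step, node `CutIntQC298`, ASSET LEAF Q2.7.4 `HaarSplitQC298`
# (registry row 2674, helper379): PROVED, VERBATIM

OFF-MAIN.  No hole, nothing assumed.  ADDITIVE (suffix `379`).

    haarSplitQC379 : MQ298.HaarSplitQC298

Statement of `T7/H298/MatchQCut.lean` (helper298@076793e90, sha256 74dc2a3c).  MIRROR of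
`T7/H159/HaarSplit305.lean` (helper159, `haarSplitC159`) with the real place of `ℚ`: on
`T7/H159/HaarSplit.lean` (`isHaarMeasure_map_restrict159`, helper159, Mathlib only) and
`T7/H973/RestrGLQ.lean` (helper973: `surj_restrQ973`, `proper_restrQ973`, `isOpen_restrSubQ973`).
The constant: `c = μ(A) / μr(C)`, `A = {y : y_v ∈ U(m_v) for all v, y_∞ ∈ C}` for a compact
neighbourhood `C` of `1` in `GL₂(ℝ)`.
-/

set_option autoImplicit false
set_option linter.style.haveILetI false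

open IsDedekindDomain NumberField MeasureTheory
open scoped RestrictedProduct

noncomputable section

namespace Fermat.Agent.LT.T7.H379

open Fermat.Agent.LT.H556.A0 Fermat.Agent.LT Fermat.Agent.LT.T7 Fermat.Agent.LT.T7.H159
  Fermat.Agent.LT.T7.H973

attribute [local instance] Fermat.Agent.LT.T5.instMeasurableSpaceG

/-! ## The map to the product -/

/-- The target group `∏_{v ∈ S} GL₂(ℚ_v) × GL₂(ℝ)`. -/
abbrev TgtQ379 (S : Finset (HeightOneSpectrum (𝓞 ℚ))) : Type :=
  (∀ v : S, GL (Fin 2) ((v : HeightOneSpectrum (𝓞 ℚ)).adicCompletion ℚ)) × GL (Fin 2) ℝ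

/-- `compSQ298 S` as a homomorphism. -/
def compHomQ379 (S : Finset (HeightOneSpectrum (𝓞 ℚ))) : G ℚ →* TgtQ379 S :=
  MonoidHom.prod (MonoidHom.pi fun v : S => H305.finGL305 v.1) MQ298.reGLQ298

theorem compHomQ_eq379 (S : Finset (HeightOneSpectrum (𝓞 ℚ))) :
    ⇑(compHomQ379 S) = MQ298.compSQ298 S := rfl

theorem continuous_compHomQ379 (S : Finset (HeightOneSpectrum (𝓞 ℚ))) :
    Continuous (compHomQ379 S) := by
  refine Continuous.prodMk (continuous_pi fun v => ?_) ?_
  · exact continuous_locProjQ973 (Sum.inr v.1)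
  · exact continuous_locProjQ973 (Sum.inl ())

theorem surj_compQ379 (S : Finset (HeightOneSpectrum (𝓞 ℚ))) (h : TgtQ379 S) :
    ∃ e ∈ restrSub159 locProjQ973 locKQ973 (baseSetQ973 S), compHomQ379 S e = h := by
  set x : ∀ i : baseSetQ973 S, LocGLQ973 i := fun i =>
    match i with
    | ⟨Sum.inl _, _⟩ => (h.2 : GL (Fin 2) ℝ)
    | ⟨Sum.inr v, hv⟩ => (h.1 ⟨v, (inr_mem_baseSetQ973 S v).1 hv⟩ :
        GL (Fin 2) (v.adicCompletion ℚ)) with hx
  obtain ⟨g, hg, hgx⟩ := surj_restrQ973 (baseSetQ973 S) (inl_mem_baseSetQ973 S ()) x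
  refine ⟨g, hg, Prod.ext (funext fun v => ?_) ?_⟩
  · exact congrFun hgx ⟨Sum.inr v.1, (inr_mem_baseSetQ973 S v.1).2 v.2⟩
  · exact congrFun hgx ⟨Sum.inl (), inl_mem_baseSetQ973 S ()⟩

open Classical in
theorem proper_compQ379 (S : Finset (HeightOneSpectrum (𝓞 ℚ))) (C : Set (TgtQ379 S))
    (hC : IsCompact C) :
    ∃ C' : Set (G ℚ), IsCompact C' ∧
      (compHomQ379 S) ⁻¹' C ∩
        (restrSub159 locProjQ973 locKQ973 (baseSetQ973 S) : Set (G ℚ)) ⊆ C' := by
  set Cf : ∀ i : PlQ973, Set (LocGLQ973 i) := fun i =>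
    match i with
    | Sum.inl _ => ((fun h : TgtQ379 S => h.2) '' C : Set (GL (Fin 2) ℝ))
    | Sum.inr v => (if hv : v ∈ S then (fun h : TgtQ379 S => h.1 ⟨v, hv⟩) '' C else ∅ :
        Set (GL (Fin 2) (v.adicCompletion ℚ))) with hCf
  have hcomp : ∀ i ∈ baseSetQ973 S, IsCompact (Cf i) := by
    intro i hi
    cases i with
    | inl u => exact hC.image continuous_snd
    | inr v =>
      have hv := (inr_mem_baseSetQ973 S v).1 hi
      have e : Cf (Sum.inr v) = (fun h : TgtQ379 S => h.1 ⟨v, hv⟩) '' C := dif_pos hv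
      rw [e]
      exact hC.image ((continuous_apply (⟨v, hv⟩ : S)).comp continuous_fst)
  obtain ⟨C', hC', hsub⟩ := proper_restrQ973 (baseSetQ973 S)
    (inl_mem_baseSetQ973 S ()) Cf hcomp
  refine ⟨C', hC', ?_⟩
  rintro g ⟨hgC, hgE⟩
  refine hsub ⟨hgE, fun i hi => ?_⟩
  cases i with
  | inl u => exact ⟨compHomQ379 S g, hgC, rfl⟩
  | inr v =>
    have hv := (inr_mem_baseSetQ973 S v).1 hi
    have e : Cf (Sum.inr v) = (fun h : TgtQ379 S => h.1 ⟨v, hv⟩) '' C := dif_pos hv
    rw [e]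
    exact ⟨compHomQ379 S g, hgC, rfl⟩

/-! ## The leaf -/

/-- **ASSET LEAF Q2.7.4 = HAAR-SPLIT over `ℚ`, PROVED.** -/
theorem haarSplitQC379 : MQ298.HaarSplitQC298 := by
  intro μ hμ μr hμr T₀ m hm
  classical
  letI mv : ∀ v : HeightOneSpectrum (𝓞 ℚ), MeasurableSpace (GL (Fin 2) (v.adicCompletion ℚ)) :=
    fun _ => borel _
  letI mr : MeasurableSpace (GL (Fin 2) ℝ) := borel _
  haveI : ∀ v : HeightOneSpectrum (𝓞 ℚ), BorelSpace (GL (Fin 2) (v.adicCompletion ℚ)) :=
    fun _ => ⟨rfl⟩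
  haveI : BorelSpace (GL (Fin 2) ℝ) := ⟨rfl⟩
  haveI : SecondCountableTopology (GL (Fin 2) ℝ) := secondCountable_GLR973
  haveI : LocallyCompactSpace (GL (Fin 2) ℝ) := locallyCompactSpace_GLR973
  haveI : ∀ v : HeightOneSpectrum (𝓞 ℚ),
      SecondCountableTopology (GL (Fin 2) (v.adicCompletion ℚ)) :=
    fun v => secondCountable_GLv159 ℚ v
  haveI : ∀ v : HeightOneSpectrum (𝓞 ℚ),
      LocallyCompactSpace (GL (Fin 2) (v.adicCompletion ℚ)) :=
    fun v => H11.LC.locallyCompactSpace_GL2_adicCompletion_h11 ℚ v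
  haveI : BorelSpace (G ℚ) := ⟨rfl⟩
  haveI := hμ
  haveI : μr.IsHaarMeasure := hμr
  obtain ⟨C, hCc, hCm, hC0, hCt⟩ := exists_nice_nhds_gen159 μr
  set A : Set (G ℚ) := {y | (∀ v : HeightOneSpectrum (𝓞 ℚ), T6.InU (m v) (H305.finGL305 v y)) ∧
    MQ298.reGLQ298 y ∈ C} with hA
  set M : ENNReal := μr C with hM
  have hM0 : M ≠ 0 := hC0
  have hMt : M ≠ ⊤ := hCt
  set c0 : ℝ := (μ A / M).toReal with hc0
  refine ⟨if 0 < c0 then c0 else 1, by split_ifs with h <;> [exact h; exact one_pos], ?_⟩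
  intro S hS μv hμv
  haveI : ∀ v : HeightOneSpectrum (𝓞 ℚ), (μv v).IsHaarMeasure := fun v => (hμv v).1
  set E := restrSub159 locProjQ973 locKQ973 (baseSetQ973 S) with hEdef
  have hE : {y : G ℚ | H305.OutT305 S y} = (E : Set (G ℚ)) := by
    ext y
    exact (mem_restrSubQ_base973 S y).symm
  have hH : (Measure.map (compHomQ379 S) (μ.restrict (E : Set (G ℚ)))).IsHaarMeasure :=
    isHaarMeasure_map_restrict159 μ E (isOpen_restrSubQ973 _) (compHomQ379 S)
      (continuous_compHomQ379 S) (surj_compQ379 S)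
      (fun C hC _ => proper_compQ379 S C hC)
  set P : Measure (TgtQ379 S) :=
    (Measure.pi fun v : S => μv v.1).prod μr with hP
  haveI i1 : ∀ v : S, MeasurableMul (GL (Fin 2) (v.1.adicCompletion ℚ)) := fun v => inferInstance
  haveI i2 : MeasurableMul (GL (Fin 2) ℝ) := inferInstance
  haveI i3 : ∀ v : S, SigmaFinite (μv v.1) := fun v => inferInstance
  haveI i4 : SigmaFinite μr := inferInstance
  haveI i5 : (Measure.pi fun v : S => μv v.1).IsHaarMeasure := inferInstance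
  haveI i7 : MeasurableMul (∀ v : S, GL (Fin 2) (v.1.adicCompletion ℚ)) := inferInstance
  haveI : P.IsHaarMeasure := by rw [hP]; infer_instance
  set s : NNReal :=
    MeasureTheory.Measure.haarScalarFactor
      (Measure.map (compHomQ379 S) (μ.restrict (E : Set (G ℚ)))) P with hs
  have e1 : Measure.map (compHomQ379 S) (μ.restrict (E : Set (G ℚ))) = s • P :=
    MeasureTheory.Measure.isMulLeftInvariant_eq_smul _ _
  have hspos : 0 < s := MeasureTheory.Measure.haarScalarFactor_pos_of_isHaarMeasure _ _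
  set W : Set (TgtQ379 S) :=
    (Set.pi Set.univ fun v : S => {g : GL (Fin 2) (v.1.adicCompletion ℚ) | T6.InU (m v.1) g}) ×ˢ
      C with hW
  have hWm : MeasurableSet W :=
    (MeasurableSet.univ_pi fun v => (isOpen_InU159 v.1 (m v.1)).measurableSet).prod hCm
  have hPW : P W = M := by
    rw [hP, hW, Measure.prod_prod, Measure.pi_pi]
    have : ∏ v : S, μv v.1 {g : GL (Fin 2) (v.1.adicCompletion ℚ) | T6.InU (m v.1) g} = 1 :=
      Finset.prod_eq_one fun v _ => (hμv v.1).2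
    rw [this, one_mul]
  have hνW : Measure.map (compHomQ379 S) (μ.restrict (E : Set (G ℚ))) W = μ A := by
    rw [map_restrict_apply159 μ E (compHomQ379 S) (continuous_compHomQ379 S) hWm]
    congr 1
    ext y
    constructor
    · rintro ⟨⟨h1, h2⟩, h3⟩
      refine ⟨fun v => ?_, h2⟩
      by_cases hv : v ∈ S
      · exact h1 ⟨v, hv⟩ (Set.mem_univ _)
      · have hm0 : m v = 0 := hm v fun h0 => hv (hS h0)
        rw [hm0]
        refine (inU_zero_iff159 v _).2 ?_
        exact h3 (Sum.inr v) fun h' => hv ((inr_mem_baseSetQ973 S v).1 h')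
    · rintro ⟨h1, h2⟩
      refine ⟨⟨fun v _ => h1 v.1, h2⟩, ?_⟩
      intro i hi
      cases i with
      | inl u => exact Subgroup.mem_top _
      | inr v =>
        have hv : v ∉ S := fun h' => hi ((inr_mem_baseSetQ973 S v).2 h')
        have hm0 : m v = 0 := hm v fun h0 => hv (hS h0)
        have := h1 v
        rw [hm0] at this
        exact (inU_zero_iff159 v _).1 this
  have hμA : μ A = (s : ENNReal) * M := by
    rw [← hνW, e1, Measure.smul_apply, hPW]
    rfl
  have hc0s : c0 = (s : ℝ) := by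
    rw [hc0, hμA, ENNReal.mul_div_cancel_right hM0 hMt]
    rfl
  have hc0pos : 0 < c0 := by
    rw [hc0s]
    exact_mod_cast hspos
  rw [if_pos hc0pos, hc0s]
  show Measure.map (MQ298.compSQ298 S) (μ.restrict {y | H305.OutT305 S y})
      = ENNReal.ofReal (s : ℝ) • P
  rw [hE, ← compHomQ_eq379, e1, ENNReal.ofReal_coe_nnreal]
  rfl

end Fermat.Agent.LT.T7.H379

end
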