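import Mathlib
import Fermat.Agent.LT.T7.H298.MatchQSpec
import Fermat.Agent.LT.T7.H119.TorComp

/-!
# Row LT, tower T7, leaf T7.L2Q.1.H1.4 `MQ298.TorCompQC298` (registry row 2604, helper379)

OFF-MAIN.  No hole, nothing assumed.  Statement = `MQ298.TorCompQC298 F` of
`LT/T7/H298/MatchQSpec.lean` (helper298@d75774dd1, sha256 53f6570a65169f92), VERBATIM.

    torCompQC379 (F) : MQ298.TorCompQC298 F

`vol(γ) = 2 · vol(δ)` for linked Haar measures on the adelic tori, `F / ℚ` imaginary quadratic.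

## Proof
The proof of helper119 (`LT/T7/H119/TorComp.lean`, `torCompC119 : H305.TorCompC305 K K'`, `K`
totally complex) uses the hypothesis `TotCplx K` ONLY for the existence of a central element `ρ`
of `GL₂(𝔸_K)` with module `n(ρ) = c₀`, `c₀ ^ l = 1/2`.

* `torComp_of_central379`: the statement for EVERY extension `K'/K` of number fields, given such
  a central element (the proof of helper119 word for word, his lemmas are imported and reused
  AS THEY ARE: none of them uses `TotCplx`).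
* `rayUnitR379`: for a totally real field the idele with the component `t` at every (real)
  infinite place and `1` at the finite places; `n(scal) = t ^ (2 r₁)`.
* `ℚ` is totally real (`Rat.isReal_infinitePlace`, one infinite place).
-/

set_option autoImplicit false
set_option linter.style.haveILetI false
set_option linter.unusedSectionVars false
set_option linter.unusedVariables false

open IsDedekindDomain NumberField MeasureTheory
open Fermat.Agent.LT.H556 Fermat.Agent.LT.H556.A0 Fermat.Agent.LT.T7 Fermat.Agent.LT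

noncomputable section

namespace Fermat.Agent.LT.T7.H379

open Fermat.Agent.LT.T7.H119

attribute [local instance] Fermat.Agent.LT.T5.instMeasurableSpaceG

/-! ## The central ray of a totally real field -/

section RayR

variable {K : Type} [Field K] [NumberField K]

/-- The adele with the component `t` at every (real) infinite place and `1` at the finite
places. -/
def rayAdR379 (hK : ∀ w : InfinitePlace K, w.IsReal) (t : ℝ) : Adl K :=
  (fun w => (InfinitePlace.Completion.ringEquivRealOfIsReal (hK w)).symm t, 1)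

theorem rayAdR_mul379 (hK : ∀ w : InfinitePlace K, w.IsReal) (s t : ℝ) :
    rayAdR379 hK s * rayAdR379 hK t = rayAdR379 hK (s * t) := by
  refine Prod.ext ?_ (mul_one 1)
  funext w
  show (InfinitePlace.Completion.ringEquivRealOfIsReal (hK w)).symm s
      * (InfinitePlace.Completion.ringEquivRealOfIsReal (hK w)).symm t
    = (InfinitePlace.Completion.ringEquivRealOfIsReal (hK w)).symm (s * t)
  rw [← map_mul]

theorem rayAdR_one379 (hK : ∀ w : InfinitePlace K, w.IsReal) : rayAdR379 hK 1 = 1 := by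
  refine Prod.ext ?_ rfl
  funext w
  show (InfinitePlace.Completion.ringEquivRealOfIsReal (hK w)).symm (1 : ℝ) = 1
  rw [map_one]

/-- The idele of `rayAdR379`. -/
def rayUnitR379 (hK : ∀ w : InfinitePlace K, w.IsReal) (t : ℝ) (ht : t ≠ 0) : (Adl K)ˣ where
  val := rayAdR379 hK t
  inv := rayAdR379 hK t⁻¹
  val_inv := by rw [rayAdR_mul379, mul_inv_cancel₀ ht, rayAdR_one379]
  inv_val := by rw [rayAdR_mul379, inv_mul_cancel₀ ht, rayAdR_one379]

theorem norm_symmR379 {w : InfinitePlace K} (hw : w.IsReal) (z : ℝ) :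
    ‖(InfinitePlace.Completion.ringEquivRealOfIsReal hw).symm z‖ = ‖z‖ := by
  have h1 := (InfinitePlace.Completion.isometry_extensionEmbeddingOfIsReal hw).norm_map_of_map_zero
    (map_zero _) ((InfinitePlace.Completion.ringEquivRealOfIsReal hw).symm z)
  rw [← h1, ← InfinitePlace.Completion.ringEquivRealOfIsReal_apply hw,
    RingEquiv.apply_symm_apply]

theorem adNorm_rayUnitR379 (hK : ∀ w : InfinitePlace K, w.IsReal) (t : ℝ) (ht : 0 < t) :
    T1.adNorm K ((rayUnitR379 hK t ht.ne' : (Adl K)ˣ) : Adl K)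
      = t ^ Fintype.card (InfinitePlace K) := by
  show (∏ w : InfinitePlace K, ‖((rayUnitR379 hK t ht.ne' : (Adl K)ˣ) : Adl K).1 w‖ ^ w.mult)
      * ∏ᶠ v : HeightOneSpectrum (𝓞 K), ‖((rayUnitR379 hK t ht.ne' : (Adl K)ˣ) : Adl K).2 v‖
    = t ^ Fintype.card (InfinitePlace K)
  have h1 : ∀ w : InfinitePlace K,
      ‖((rayUnitR379 hK t ht.ne' : (Adl K)ˣ) : Adl K).1 w‖ ^ w.mult = t := by
    intro w
    have hm : w.mult = 1 := by
      unfold InfinitePlace.mult
      rw [if_pos (hK w)]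
    show ‖(InfinitePlace.Completion.ringEquivRealOfIsReal (hK w)).symm t‖ ^ w.mult = t
    rw [norm_symmR379, hm, pow_one, Real.norm_of_nonneg ht.le]
  have h2 : ∀ v : HeightOneSpectrum (𝓞 K),
      ‖((rayUnitR379 hK t ht.ne' : (Adl K)ˣ) : Adl K).2 v‖ = 1 := by
    intro v
    show ‖(1 : v.adicCompletion K)‖ = 1
    exact norm_one
  simp only [h1, h2, finprod_one, mul_one, Finset.prod_const, Finset.card_univ]

theorem nrm_scalR379 (hK : ∀ w : InfinitePlace K, w.IsReal) (t : ℝ) (ht : 0 < t) :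
    nrm119 (scal119 (rayUnitR379 hK t ht.ne')) = t ^ (2 * Fintype.card (InfinitePlace K)) := by
  rw [nrm_eq119, det_scal119, T1.H309.adNorm_mul309, adNorm_rayUnitR379 hK t ht]
  ring

/-- A totally real field has a central element of every module `c₀` with `c₀ ^ l = 1/2`. -/
theorem exists_central_real379 (hK : ∀ w : InfinitePlace K, w.IsReal) (l : ℕ) (hl : 0 < l) :
    ∃ (ρ : G K) (c₀ : ℝ), (∀ g : G K, ρ * g = g * ρ) ∧ 0 < c₀ ∧ c₀ ^ l = 1 / 2 ∧
      nrm119 ρ = c₀ := by
  have hc : 0 < Fintype.card (InfinitePlace K) := Fintype.card_pos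
  set t₀ : ℝ := (2 : ℝ) ^ (-(1 : ℝ) / ((2 * Fintype.card (InfinitePlace K) * l : ℕ) : ℝ))
    with ht₀def
  have ht₀ : 0 < t₀ := Real.rpow_pos_of_pos (by norm_num) _
  refine ⟨scal119 (rayUnitR379 hK t₀ ht₀.ne'), t₀ ^ (2 * Fintype.card (InfinitePlace K)),
    fun g => scal_comm119 _ g, pow_pos ht₀ _, ?_, nrm_scalR379 hK t₀ ht₀⟩
  rw [← pow_mul, ← Real.rpow_natCast, ht₀def, ← Real.rpow_mul (by norm_num)]
  have hne : ((2 * Fintype.card (InfinitePlace K) * l : ℕ) : ℝ) ≠ 0 := by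
    have : 2 * Fintype.card (InfinitePlace K) * l ≠ 0 := by positivity
    exact_mod_cast this
  rw [div_mul_cancel₀ _ hne, Real.rpow_neg_one]
  norm_num

end RayR

/-! ## The volumes, given a central element -/

section Main

variable {K K' : Type} [Field K] [NumberField K] [Field K'] [NumberField K'] [Algebra K K']

/-- **The comparison of the volumes for every extension of number fields**, given a central
element `ρ` of `GL₂(𝔸_K)` with `n(ρ) = c₀`, `c₀ ^ l = 1/2` (proof of helper119). -/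
theorem torComp_of_central379 (D : CompData K K') (hD : IsCompData D)
    (ρ : G K) (c₀ : ℝ) (hρc : ∀ g : G K, ρ * g = g * ρ) (hc₀ : 0 < c₀)
    (hc₀l : c₀ ^ D.l = 1 / 2) (hρn : nrm119 ρ = c₀)
    (ι : Adl K →+* Adl K') (hι : H305.IsAdeleBase305 D.s D.l ι)
    (δ : GL (Fin 2) K') (γ : GL (Fin 2) K) (hell : T6.IsEll γ)
    (hN : D.s.normUpTo D.l δ = Matrix.GeneralLinearGroup.map (algebraMap K K') γ)
    (Fδ : Set (G K')) (Fγ : Set (G K)) (hFδ : T5.IsTwDomain D.s δ Fδ)
    (hFγ : T5.IsTwDomain (T5.AdelicAut.id K) γ Fγ)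
    (μT : @Measure (H305.tA305 (T5.AdelicAut.id K) γ) (borel _))
    (μT' : @Measure (H305.tA305 D.s δ) (borel _))
    (hμT : @Measure.IsHaarMeasure _ _ _ (borel _) μT)
    (hμT' : @Measure.IsHaarMeasure _ _ _ (borel _) μT')
    (hlink : H305.IsTorLinked305 ι D.s δ γ μT μT') :
    H305.torVol305 (T5.AdelicAut.id K) γ μT Fγ
      = (D.l : ENNReal) * H305.torVol305 D.s δ μT' Fδ := by
  have hρpow : ∀ (j : ℕ) (g : G K), (ρ ^ j)⁻¹ * g = g * (ρ ^ j)⁻¹ := by
    intro j g
    have h1 : Commute ρ g := hρc g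
    exact ((h1.pow_left j).inv_left).eq
  have hc₀1 : c₀ < 1 := lt_one_of_pow119 c₀ D.l hc₀l
  classical
  have hreg : T6.IsReg γ := hell.1
  have hl : 0 < D.l := hD.cyc.pos
  letI mT : MeasurableSpace (H305.tA305 (T5.AdelicAut.id K) γ) := borel _
  haveI : BorelSpace (H305.tA305 (T5.AdelicAut.id K) γ) := ⟨rfl⟩
  haveI : BorelSpace (G K) := ⟨rfl⟩
  haveI : BorelSpace (G K') := ⟨rfl⟩
  haveI : μT.IsHaarMeasure := hμT
  haveI : Countable (T5.twStab (T5.AdelicAut.id K) γ) := by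
    haveI := countable_gl119 K
    infer_instance
  -- the embedding of the rational points
  let e : T5.twStab (T5.AdelicAut.id K) γ →* H305.tA305 (T5.AdelicAut.id K) γ :=
    { toFun := fun g => ⟨T5.ratG (g : GL (Fin 2) K), ratG_mem_tA119 γ g⟩
      map_one' := Subtype.ext (map_one T5.ratG)
      map_mul' := fun a b => Subtype.ext (map_mul T5.ratG _ _) }
  have he : ∀ (g : T5.twStab (T5.AdelicAut.id K) γ) (t : H305.tA305 (T5.AdelicAut.id K) γ),
      ((e g * t : H305.tA305 (T5.AdelicAut.id K) γ) : G K)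
        = T5.ratG (g : GL (Fin 2) K) * (t : G K) := fun _ _ => rfl
  -- the central element (given)
  have hρT : ρ ∈ H305.tA305 (T5.AdelicAut.id K) γ :=
    (mem_tA_id_iff119 γ ρ).mpr (hρc _)
  let ρT : H305.tA305 (T5.AdelicAut.id K) γ := ⟨ρ, hρT⟩
  have hρj : ∀ (j : ℕ) (t : H305.tA305 (T5.AdelicAut.id K) γ),
      (((ρT ^ j)⁻¹ * t : H305.tA305 (T5.AdelicAut.id K) γ) : G K) = (ρ ^ j)⁻¹ * (t : G K) :=
    fun _ _ => rfl
  have hnρj : ∀ (j : ℕ) (t : H305.tA305 (T5.AdelicAut.id K) γ),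
      nrm119 ((ρ ^ j)⁻¹ * (t : G K)) = (c₀ ^ j)⁻¹ * nrm119 (t : G K) := by
    intro j t
    rw [nrm_mul119, nrm_inv119, nrm_pow119, hρn]
  -- the sets
  let S : Set (H305.tA305 (T5.AdelicAut.id K) γ) := {t | ((t : G K))⁻¹ ∈ T5.slab K}
  let E : Set (H305.tA305 (T5.AdelicAut.id K) γ) := {t | ((t : G K))⁻¹ ∈ Fγ}
  let E₁ : Set (H305.tA305 (T5.AdelicAut.id K) γ) :=
    {t | (Matrix.GeneralLinearGroup.map ι (t : G K))⁻¹ ∈ Fδ}
  let B : ℕ → Set (H305.tA305 (T5.AdelicAut.id K) γ) :=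
    fun j => (fun t : H305.tA305 (T5.AdelicAut.id K) γ => (ρT ^ j)⁻¹ * t) ⁻¹' E₁
  -- measurability
  have hEm : MeasurableSet E := by
    have hcont : Continuous fun t : H305.tA305 (T5.AdelicAut.id K) γ => ((t : G K))⁻¹ :=
      continuous_subtype_val.inv
    exact hcont.measurable hFγ.meas
  have hE₁m : MeasurableSet E₁ := by
    have hcont : Continuous fun t : H305.tA305 (T5.AdelicAut.id K) γ =>
        (Matrix.GeneralLinearGroup.map ι (t : G K))⁻¹ :=
      ((continuous_glMap119 hι.cont).comp continuous_subtype_val).inv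
    exact hcont.measurable hFδ.meas
  have hBm : ∀ j, MeasurableSet (B j) := fun j => measurable_const_mul _ hE₁m
  -- the modules
  have hSiff : ∀ t : H305.tA305 (T5.AdelicAut.id K) γ,
      t ∈ S ↔ 1 / 2 < nrm119 (t : G K) ∧ nrm119 (t : G K) ≤ 1 := by
    intro t
    have h := slab_pow_iff119 (1 / 2) 1 (by norm_num) (by norm_num) (by norm_num)
      (nrm119 (t : G K)) (nrm_pos119 _)
    rw [pow_one] at h
    rw [← h]
    show ((t : G K))⁻¹ ∈ T5.slab K ↔ _
    rw [mem_slab_iff119, nrm_inv119]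
  have hupiff : ∀ t : G K, (Matrix.GeneralLinearGroup.map ι t)⁻¹ ∈ T5.slab K' ↔
      c₀ < nrm119 t ∧ nrm119 t ≤ 1 := by
    intro t
    rw [← slab_pow_iff119 c₀ D.l hc₀ hl hc₀l (nrm119 t) (nrm_pos119 _), mem_slab_iff119,
      nrm_inv119, nrm_map119 hι]
  have hBn : ∀ (j : ℕ) (t : H305.tA305 (T5.AdelicAut.id K) γ), t ∈ B j →
      c₀ ^ (j + 1) < nrm119 (t : G K) ∧ nrm119 (t : G K) ≤ c₀ ^ j := by
    intro j t ht
    have h1 : (Matrix.GeneralLinearGroup.map ι ((ρ ^ j)⁻¹ * (t : G K)))⁻¹ ∈ Fδ := ht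
    have h2 := (hupiff _).mp (hFδ.sub h1)
    rw [hnρj] at h2
    have hcj : 0 < c₀ ^ j := pow_pos hc₀ j
    constructor
    · have := h2.1
      rw [lt_inv_mul_iff₀ hcj] at this
      rw [pow_succ']
      linarith [mul_comm (c₀ ^ j) c₀]
    · have := h2.2
      rw [inv_mul_le_iff₀ hcj] at this
      linarith
  have hES : E ⊆ S := fun t ht => hFγ.sub ht
  have hBS : (⋃ j ∈ Finset.range D.l, B j) ⊆ S := by
    intro t ht
    simp only [Set.mem_iUnion, Finset.mem_range] at ht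
    obtain ⟨j, hj, htj⟩ := ht
    obtain ⟨h1, h2⟩ := hBn j t htj
    rw [hSiff]
    constructor
    · have h3 : c₀ ^ D.l ≤ c₀ ^ (j + 1) := pow_le_pow_of_le_one hc₀.le hc₀1.le (by omega)
      rw [hc₀l] at h3
      linarith
    · have h3 : c₀ ^ j ≤ 1 := pow_le_one₀ hc₀.le hc₀1.le
      linarith
  -- the two fundamental domains
  have hAu : ∀ t ∈ S, ∃! g : T5.twStab (T5.AdelicAut.id K) γ, e g * t ∈ E := by
    intro t ht
    exact exists_unique_down119 γ hreg Fγ hFγ (t : G K) t.2 ht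
  have hBu : ∀ t ∈ S, ∃! g : T5.twStab (T5.AdelicAut.id K) γ,
      e g * t ∈ ⋃ j ∈ Finset.range D.l, B j := by
    intro t ht
    obtain ⟨hn1, hn2⟩ := (hSiff t).mp ht
    obtain ⟨j, hj, hj1, hj2⟩ := exists_tile119 c₀ D.l hl hc₀l _ hn1 hn2
    have hcj : 0 < c₀ ^ j := pow_pos hc₀ j
    have hs : (Matrix.GeneralLinearGroup.map ι ((ρ ^ j)⁻¹ * (t : G K)))⁻¹ ∈ T5.slab K' := by
      rw [hupiff, hnρj]
      constructor
      · rw [lt_inv_mul_iff₀ hcj]
        rw [pow_succ'] at hj1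
        linarith [mul_comm (c₀ ^ j) c₀]
      · rw [inv_mul_le_iff₀ hcj]
        linarith
    have hsT : (ρ ^ j)⁻¹ * (t : G K) ∈ H305.tA305 (T5.AdelicAut.id K) γ :=
      ((ρT ^ j)⁻¹ * t).2
    obtain ⟨g, hg, hu⟩ := exists_unique_up119 D hD ι hι δ γ hreg hN Fδ hFδ _ hsT hs
    have hswap : ∀ g' : T5.twStab (T5.AdelicAut.id K) γ,
        (ρ ^ j)⁻¹ * (T5.ratG (g' : GL (Fin 2) K) * (t : G K))
          = T5.ratG (g' : GL (Fin 2) K) * ((ρ ^ j)⁻¹ * (t : G K)) := by
      intro g'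
      rw [← mul_assoc, hρpow, mul_assoc]
    refine ⟨g, ?_, ?_⟩
    · simp only [Set.mem_iUnion, Finset.mem_range]
      refine ⟨j, hj, ?_⟩
      show (Matrix.GeneralLinearGroup.map ι
        ((ρ ^ j)⁻¹ * (T5.ratG (g : GL (Fin 2) K) * (t : G K))))⁻¹ ∈ Fδ
      rw [hswap]
      exact hg
    · intro g' hg'
      simp only [Set.mem_iUnion, Finset.mem_range] at hg'
      obtain ⟨j', hj', hg'j⟩ := hg'
      obtain ⟨h1, h2⟩ := hBn j' _ hg'j
      have hnorm : nrm119 ((e g' * t : H305.tA305 (T5.AdelicAut.id K) γ) : G K)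
          = nrm119 (t : G K) := by
        rw [he, nrm_mul119, nrm_ratG119, one_mul]
      rw [hnorm] at h1 h2
      have hjj : j' = j := tile_unique119 c₀ hc₀ hc₀1 h1 h2 hj1 hj2
      subst hjj
      apply hu
      have h3 : (Matrix.GeneralLinearGroup.map ι
        ((ρ ^ j')⁻¹ * (T5.ratG (g' : GL (Fin 2) K) * (t : G K))))⁻¹ ∈ Fδ := hg'j
      rw [hswap] at h3
      exact h3
  have hmain : μT E = μT (⋃ j ∈ Finset.range D.l, B j) :=
    measure_eq_of_strictFD119 e μT S E _ hEm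
      (Finset.measurableSet_biUnion _ fun j _ => hBm j) hES hBS hAu hBu
  -- the sum over the translates
  have hdisj : ((Finset.range D.l : Finset ℕ) : Set ℕ).PairwiseDisjoint B := by
    intro j _ j' _ hjj'
    show Disjoint (B j) (B j')
    rw [Set.disjoint_left]
    intro t htj htj'
    obtain ⟨h1, h2⟩ := hBn j t htj
    obtain ⟨h1', h2'⟩ := hBn j' t htj'
    exact hjj' (tile_unique119 c₀ hc₀ hc₀1 h1 h2 h1' h2')
  have hsum : μT (⋃ j ∈ Finset.range D.l, B j) = ∑ j ∈ Finset.range D.l, μT (B j) :=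
    measure_biUnion_finset hdisj fun j _ => hBm j
  have hBj : ∀ j, μT (B j) = μT E₁ := fun j => measure_preimage_mul μT _ _
  -- the linked measures
  have hlinkE : μT' {t : H305.tA305 D.s δ | ((t : G K'))⁻¹ ∈ Fδ} = μT E₁ :=
    hlink (Inv.inv ⁻¹' Fδ) (continuous_inv.measurable hFδ.meas)
  show μT E = (D.l : ENNReal) * μT' {t : H305.tA305 D.s δ | ((t : G K'))⁻¹ ∈ Fδ}
  rw [hmain, hsum, Finset.sum_congr rfl (fun j _ => hBj j), Finset.sum_const, Finset.card_range,
    nsmul_eq_mul, hlinkE]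

end Main

/-! ## The leaf over `ℚ` -/

section Leaf

variable (F : Type) [Field F] [NumberField F]

theorem isReal_rat379 : ∀ w : InfinitePlace ℚ, w.IsReal := fun w =>
  Subsingleton.elim Rat.infinitePlace w ▸ Rat.isReal_infinitePlace

/-- **Leaf T7.L2Q.1.H1.4 `TorCompQC298`**, VERBATIM. -/
theorem torCompQC379 : MQ298.TorCompQC298 F := by
  intro _hF D hD _hcyc _hl2 ι hι δ γ hell hN Fδ Fγ hFδ hFγ μT μT' hμT hμT' hlink
  obtain ⟨ρ, c₀, hρc, hc₀, hc₀l, hρn⟩ := exists_central_real379 isReal_rat379 D.l hD.cyc.pos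
  exact torComp_of_central379 D hD ρ c₀ hρc hc₀ hc₀l hρn ι hι δ γ hell hN Fδ Fγ hFδ hFγ
    μT μT' hμT hμT' hlink

end Leaf

end Fermat.Agent.LT.T7.H379

end
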