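import Mathlib
import Fermat.Agent.LT.T7.H340.UpFactSpec
import Fermat.Agent.LT.T7.H941.SuppDown
import Fermat.Agent.LT.T7.H558.SigmaLoc
import Fermat.Agent.LT.T7.H453.IotaOnto
import Fermat.Agent.LT.T7.H388.UnitMatch
import Fermat.Agent.LT.T7.H159.GoodUnitSplit

/-!
# Row LT, tower T7, leaf UF.A2 `SuppUpC340` (cut of helper340, registry row 2746, helper379):
# KIT -- the action of `σ_𝔸` on the components, the orbit `σ^{-n} w₀`, the split local step

OFF-MAIN.  No hole, nothing assumed.  ADDITIVE (suffix `379`).  ONE field `K'`, ANY adelic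
automorphism `s` (the base field does not enter).

* `finGL_onG_sloc379`: the component of `σ(g)` at `σ w` is the image of the component at `w`
  under the local isomorphism `sloc379` of `SigmaLocC305` (closed: helper558 `sigmaLocC558`);
  `infComp_onG_one379`: trivial infinite components stay trivial.
* `eq_of_rat379` (density), `map_congr_place379` (cast lemma).
* `sigI379`, `sigI_iterate379`, `sigI_period379`: the action of `σ` on the ideals; `exists_pre379`,
  `placeRel_inj379`, `placeRel_fun379`.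
* `orbit379`, `orbit_period379`, `orbit_inj379` (`l` prime, `σ w₀ ≠ w₀`), `orbit_surj379`.
* `exists_transport379`, `xn379`: the components along the orbit in `GL₂` of the completion at
  `w 0`; `xn_onG379` (`σ` is the shift), `xn_wrap379`.
* `prodLoc379`: the element with prescribed components on the orbit.
* `mem_tA_of_comp379`: membership in `T_𝔸(δ)` by components.
* **`localStep_split379`**: the local step on an orbit of `l` distinct places (helper159
  `goodUnit_split159`).
-/

set_option autoImplicit false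
set_option linter.style.haveILetI false
set_option linter.unusedSectionVars false
set_option linter.unusedVariables false

open AutomorphicForm IsDedekindDomain NumberField
open scoped ComplexConjugate

noncomputable section

namespace Fermat.Agent.LT.T7.H379

open Fermat.Agent.LT Fermat.Agent.LT.H556 Fermat.Agent.LT.H556.A0 Fermat.Agent.LT.T7
open Fermat.Agent.LT.T7.H305

variable {K' : Type} [Field K'] [NumberField K']

/-! ## 1. The components of `σ(g)` -/

/-- The component of `σ(g)` at `w'`, in terms of the component of `g` at `w = σ⁻¹ w'`. -/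
theorem finGL_onG379 (s : T5.AdelicAut K') (w w' : HeightOneSpectrum (𝓞 K'))
    (sw : w.adicCompletion K' ≃+* w'.adicCompletion K')
    (h : ∀ a : Adl K', T5.finHom w' (s.σA a) = sw (T5.finHom w a)) (g : G K') :
    finGL305 w' (s.onG g)
      = Matrix.GeneralLinearGroup.map
          (sw : w.adicCompletion K' →+* w'.adicCompletion K') (finGL305 w g) := by
  apply Matrix.GeneralLinearGroup.ext
  intro a b
  exact h _

/-- The chosen local isomorphism of `SigmaLocC305` (closed by helper558). -/
def sloc379 (s : T5.AdelicAut K') (w w' : HeightOneSpectrum (𝓞 K'))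
    (h : T5.PlaceRel s w w') : w.adicCompletion K' ≃+* w'.adicCompletion K' :=
  Classical.choose ((H558.sigmaLocC558 (K := K') s).1 w w' h)

theorem sloc_rat379 (s : T5.AdelicAut K') (w w' : HeightOneSpectrum (𝓞 K'))
    (h : T5.PlaceRel s w w') (x : K') :
    sloc379 s w w' h (algebraMap K' (w.adicCompletion K') x)
      = algebraMap K' (w'.adicCompletion K') (s.σ x) :=
  (Classical.choose_spec ((H558.sigmaLocC558 (K := K') s).1 w w' h)).1 x

theorem sloc_val379 (s : T5.AdelicAut K') (w w' : HeightOneSpectrum (𝓞 K'))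
    (h : T5.PlaceRel s w w') (x : w.adicCompletion K') :
    Valued.v (sloc379 s w w' h x) = Valued.v x :=
  (Classical.choose_spec ((H558.sigmaLocC558 (K := K') s).1 w w' h)).2.1 x

theorem sloc_fin379 (s : T5.AdelicAut K') (w w' : HeightOneSpectrum (𝓞 K'))
    (h : T5.PlaceRel s w w') (a : Adl K') :
    T5.finHom w' (s.σA a) = sloc379 s w w' h (T5.finHom w a) :=
  (Classical.choose_spec ((H558.sigmaLocC558 (K := K') s).1 w w' h)).2.2 a

theorem finGL_onG_sloc379 (s : T5.AdelicAut K') (w w' : HeightOneSpectrum (𝓞 K'))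
    (h : T5.PlaceRel s w w') (g : G K') :
    finGL305 w' (s.onG g)
      = Matrix.GeneralLinearGroup.map
          (sloc379 s w w' h : w.adicCompletion K' →+* w'.adicCompletion K') (finGL305 w g) :=
  finGL_onG379 s w w' _ (sloc_fin379 s w w' h) g

/-! ## 2. Infinite places -/

theorem infComp_onG_one379 (s : T5.AdelicAut K') (g : G K')
    (hg : ∀ w : InfinitePlace K', H129.infCompHom129 w g = 1) (w : InfinitePlace K') :
    H129.infCompHom129 w (s.onG g) = 1 := by
  have hentry : ∀ (w₁ : InfinitePlace K') (a b : Fin 2),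
      T5.infHom w₁ ((g : Matrix (Fin 2) (Fin 2) (Adl K')) a b)
        = ((1 : Matrix (Fin 2) (Fin 2) ℂ) a b) := by
    intro w₁ a b
    have h1 := congrArg (fun u : GL (Fin 2) w₁.Completion =>
      (u : Matrix (Fin 2) (Fin 2) w₁.Completion) a b) (hg w₁)
    have h2 : ((g : Matrix (Fin 2) (Fin 2) (Adl K')) a b).1 w₁
        = (1 : Matrix (Fin 2) (Fin 2) w₁.Completion) a b := h1
    show InfinitePlace.Completion.extensionEmbedding w₁
        (((g : Matrix (Fin 2) (Fin 2) (Adl K')) a b).1 w₁) = _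
    rw [h2]
    by_cases hab : a = b
    · rw [hab, Matrix.one_apply_eq, Matrix.one_apply_eq, map_one]
    · rw [Matrix.one_apply_ne hab, Matrix.one_apply_ne hab, map_zero]
  have hconj : ∀ a b : Fin 2, conj ((1 : Matrix (Fin 2) (Fin 2) ℂ) a b)
      = (1 : Matrix (Fin 2) (Fin 2) ℂ) a b := by
    intro a b
    by_cases hab : a = b
    · rw [hab, Matrix.one_apply_eq, map_one]
    · rw [Matrix.one_apply_ne hab, map_zero]
  have hσ : ∀ a b : Fin 2,
      T5.infHom w (s.σA ((g : Matrix (Fin 2) (Fin 2) (Adl K')) a b))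
        = ((1 : Matrix (Fin 2) (Fin 2) ℂ) a b) := by
    intro a b
    rcases (H558.sigmaLocC558 (K := K') s).2 w with h | h
    · rw [h, hentry]
    · rw [h, hentry, hconj]
  apply Matrix.GeneralLinearGroup.ext
  intro a b
  have inj := (InfinitePlace.Completion.extensionEmbedding w).injective
  apply inj
  have h3 := hσ a b
  show InfinitePlace.Completion.extensionEmbedding w
      ((s.σA ((g : Matrix (Fin 2) (Fin 2) (Adl K')) a b)).1 w) = _
  rw [show InfinitePlace.Completion.extensionEmbedding w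
      ((s.σA ((g : Matrix (Fin 2) (Fin 2) (Adl K')) a b)).1 w)
      = T5.infHom w (s.σA ((g : Matrix (Fin 2) (Fin 2) (Adl K')) a b)) from rfl, h3]
  by_cases hab : a = b
  · rw [hab, Matrix.one_apply_eq]
    show (1 : ℂ) = InfinitePlace.Completion.extensionEmbedding w
      ((1 : Matrix (Fin 2) (Fin 2) w.Completion) b b)
    rw [Matrix.one_apply_eq, map_one]
  · rw [Matrix.one_apply_ne hab]
    show (0 : ℂ) = InfinitePlace.Completion.extensionEmbedding w
      ((1 : Matrix (Fin 2) (Fin 2) w.Completion) a b)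
    rw [Matrix.one_apply_ne hab, map_zero]

/-! ## 3. Uniqueness of the local isomorphisms (density) -/

theorem eq_of_rat379 {w w' : HeightOneSpectrum (𝓞 K')}
    (c c' : w.adicCompletion K' →+* w'.adicCompletion K')
    (hc : ∀ x, Valued.v (c x) = Valued.v x) (hc' : ∀ x, Valued.v (c' x) = Valued.v x)
    (h : ∀ y : K', c (algebraMap K' (w.adicCompletion K') y)
      = c' (algebraMap K' (w.adicCompletion K') y)) (a : w.adicCompletion K') : c a = c' a := by
  have h1 : Continuous c :=
    H453.continuous_of_valued_eq453 (HeightOneSpectrum.valuedAdicCompletion_surjective K' w)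
      (HeightOneSpectrum.valuedAdicCompletion_surjective K' w') (⇑c)
      (fun x y => (map_sub c x y).symm) hc
  have h2 : Continuous c' :=
    H453.continuous_of_valued_eq453 (HeightOneSpectrum.valuedAdicCompletion_surjective K' w)
      (HeightOneSpectrum.valuedAdicCompletion_surjective K' w') (⇑c')
      (fun x y => (map_sub c' x y).symm) hc'
  have e : (⇑c : w.adicCompletion K' → w'.adicCompletion K') = ⇑c' :=
    (HeightOneSpectrum.denseRange_algebraMap K' w).equalizer h1 h2 (funext fun k => h k)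
  exact congrFun e a

/-- The cast lemma: equal places, local isomorphisms to a fixed completion which agree on `K'`. -/
theorem map_congr_place379 {w₀ : HeightOneSpectrum (𝓞 K')} (u u' : HeightOneSpectrum (𝓞 K'))
    (h : u = u') (c : u.adicCompletion K' ≃+* w₀.adicCompletion K')
    (c' : u'.adicCompletion K' ≃+* w₀.adicCompletion K')
    (hc : ∀ x, Valued.v (c x) = Valued.v x) (hc' : ∀ x, Valued.v (c' x) = Valued.v x)
    (hr : ∀ y : K', c (algebraMap K' (u.adicCompletion K') y)
      = c' (algebraMap K' (u'.adicCompletion K') y)) (g : G K') :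
    Matrix.GeneralLinearGroup.map (c : u.adicCompletion K' →+* w₀.adicCompletion K')
        (finGL305 u g)
      = Matrix.GeneralLinearGroup.map (c' : u'.adicCompletion K' →+* w₀.adicCompletion K')
        (finGL305 u' g) := by
  subst h
  apply Matrix.GeneralLinearGroup.ext
  intro a b
  exact eq_of_rat379 (c : u.adicCompletion K' →+* w₀.adicCompletion K')
    (c' : u.adicCompletion K' →+* w₀.adicCompletion K') hc hc' hr _

/-! ## 4. The action of `σ` on the ideals -/

/-- The action of `σ` on the ideals of `𝓞 K'`. -/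
def sigI379 (σ : K' ≃+* K') (I : Ideal (𝓞 K')) : Ideal (𝓞 K') :=
  Ideal.map (RingOfIntegers.mapRingEquiv σ) I

theorem mem_sigI379 (σ : K' ≃+* K') (I : Ideal (𝓞 K')) (y : 𝓞 K') :
    y ∈ sigI379 σ I ↔ ∃ x ∈ I, RingOfIntegers.mapRingEquiv σ x = y :=
  Ideal.mem_map_of_equiv _ _

theorem coe_mapRingEquiv379 (σ : K' ≃+* K') (x : 𝓞 K') :
    ((RingOfIntegers.mapRingEquiv σ x : 𝓞 K') : K') = σ (x : K') := rfl

theorem sigI_iterate379 (σ : K' ≃+* K') (n : ℕ) (I : Ideal (𝓞 K')) (y : 𝓞 K') :
    y ∈ (sigI379 σ)^[n] I ↔ ∃ x ∈ I, (σ ^ n) (x : K') = (y : K') := by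
  induction n generalizing y with
  | zero =>
    rw [Function.iterate_zero, id]
    constructor
    · intro hy
      exact ⟨y, hy, rfl⟩
    · rintro ⟨x, hx, hxy⟩
      have : x = y := RingOfIntegers.ext hxy
      rwa [← this]
  | succ n ih =>
    rw [Function.iterate_succ_apply', mem_sigI379]
    constructor
    · rintro ⟨z, hz, rfl⟩
      obtain ⟨x, hx, hxz⟩ := (ih z).1 hz
      refine ⟨x, hx, ?_⟩
      rw [pow_succ', RingAut.mul_apply, hxz]
      rfl
    · rintro ⟨x, hx, hxy⟩
      rw [pow_succ', RingAut.mul_apply] at hxy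
      refine ⟨RingOfIntegers.mapRingEquiv (σ ^ n) x, (ih _).2 ⟨x, hx, rfl⟩, ?_⟩
      exact RingOfIntegers.ext hxy

theorem sigI_period379 (σ : K' ≃+* K') (l : ℕ) (hl : ∀ x : K', (σ ^ l) x = x)
    (I : Ideal (𝓞 K')) : (sigI379 σ)^[l] I = I := by
  ext y
  rw [sigI_iterate379]
  constructor
  · rintro ⟨x, hx, hxy⟩
    rw [hl] at hxy
    have : x = y := RingOfIntegers.ext hxy
    rwa [← this]
  · intro hy
    exact ⟨y, hy, hl _⟩

theorem sigI_injective379 (σ : K' ≃+* K') : Function.Injective (sigI379 σ) := by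
  intro I J h
  have key : ∀ A B : Ideal (𝓞 K'), sigI379 σ A = sigI379 σ B → A ≤ B := by
    intro A B hAB x hx
    have h1 : RingOfIntegers.mapRingEquiv σ x ∈ sigI379 σ B := by
      rw [← hAB]
      exact (mem_sigI379 σ A _).2 ⟨x, hx, rfl⟩
    obtain ⟨z, hz, hzx⟩ := (mem_sigI379 σ B _).1 h1
    have : z = x := (RingOfIntegers.mapRingEquiv σ).injective hzx
    rwa [← this]
  exact le_antisymm (key I J h) (key J I h.symm)

theorem placeRel_iff379 (s : T5.AdelicAut K') (w w' : HeightOneSpectrum (𝓞 K')) :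
    T5.PlaceRel s w w' ↔ w'.asIdeal = sigI379 s.σ w.asIdeal := Iff.rfl

theorem placeRel_inj379 (s : T5.AdelicAut K') {w w₁ w' : HeightOneSpectrum (𝓞 K')}
    (h : T5.PlaceRel s w w') (h₁ : T5.PlaceRel s w₁ w') : w = w₁ := by
  apply HeightOneSpectrum.ext
  apply sigI_injective379 s.σ
  rw [← (placeRel_iff379 s w w').1 h, ← (placeRel_iff379 s w₁ w').1 h₁]

theorem placeRel_fun379 (s : T5.AdelicAut K') {w w' w'' : HeightOneSpectrum (𝓞 K')}
    (h : T5.PlaceRel s w w') (h₁ : T5.PlaceRel s w w'') : w' = w'' := by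
  apply HeightOneSpectrum.ext
  rw [(placeRel_iff379 s w w').1 h, (placeRel_iff379 s w w'').1 h₁]

theorem exists_pre379 (s : T5.AdelicAut K') (w' : HeightOneSpectrum (𝓞 K')) :
    ∃ w : HeightOneSpectrum (𝓞 K'), T5.PlaceRel s w w' := by
  obtain ⟨w, hw⟩ := H453.exists_place_map453 s.σ.symm w'
  refine ⟨w, ?_⟩
  rw [placeRel_iff379]
  ext y
  rw [mem_sigI379]
  constructor
  · intro hy
    refine ⟨RingOfIntegers.mapRingEquiv s.σ.symm y, ?_, ?_⟩
    · rw [hw]
      exact Ideal.mem_map_of_mem _ hy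
    · apply RingOfIntegers.ext
      show s.σ (s.σ.symm (y : K')) = (y : K')
      exact s.σ.apply_symm_apply _
  · rintro ⟨x, hx, rfl⟩
    rw [hw] at hx
    obtain ⟨z, hz, hzx⟩ := (Ideal.mem_map_of_equiv _ _).1 hx
    have : RingOfIntegers.mapRingEquiv s.σ x = z := by
      rw [← hzx]
      apply RingOfIntegers.ext
      show s.σ (s.σ.symm (z : K')) = (z : K')
      exact s.σ.apply_symm_apply _
    rwa [this]

/-! ## 5. The orbit `w n = σ^{-n} w₀` -/

/-- The places `σ^{-n} w₀`. -/
def orbit379 (s : T5.AdelicAut K') (w₀ : HeightOneSpectrum (𝓞 K')) :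
    ℕ → HeightOneSpectrum (𝓞 K')
  | 0 => w₀
  | n + 1 => Classical.choose (exists_pre379 s (orbit379 s w₀ n))

theorem orbit_zero379 (s : T5.AdelicAut K') (w₀ : HeightOneSpectrum (𝓞 K')) :
    orbit379 s w₀ 0 = w₀ := rfl

theorem orbit_succ379 (s : T5.AdelicAut K') (w₀ : HeightOneSpectrum (𝓞 K')) (n : ℕ) :
    T5.PlaceRel s (orbit379 s w₀ (n + 1)) (orbit379 s w₀ n) :=
  Classical.choose_spec (exists_pre379 s (orbit379 s w₀ n))

section Orbit

variable (s : T5.AdelicAut K') (w : ℕ → HeightOneSpectrum (𝓞 K'))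
  (hw : ∀ n, T5.PlaceRel s (w (n + 1)) (w n))

include hw

theorem orbit_iter379 (m n : ℕ) :
    (sigI379 s.σ)^[n] (w (m + n)).asIdeal = (w m).asIdeal := by
  induction n with
  | zero => rfl
  | succ n ih =>
    rw [Function.iterate_succ_apply, ← add_assoc, ← (placeRel_iff379 s _ _).1 (hw (m + n)), ih]

theorem orbit_period379 (l : ℕ) (hl : ∀ x : K', (s.σ ^ l) x = x) (n : ℕ) :
    w (n + l) = w n := by
  apply HeightOneSpectrum.ext
  rw [← orbit_iter379 s w hw n l, sigI_period379 s.σ l hl]

theorem orbit_mod379 (l : ℕ) (hl : ∀ x : K', (s.σ ^ l) x = x) (a : ℕ) :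
    w a = w (a % l) := by
  have key : ∀ q r : ℕ, w (r + l * q) = w r := by
    intro q r
    induction q with
    | zero => rfl
    | succ q ih =>
      rw [Nat.mul_succ, ← add_assoc, orbit_period379 s w hw l hl, ih]
  conv_lhs => rw [← Nat.mod_add_div a l]
  exact key _ _

theorem orbit_inj379 (l : ℕ) (hl : ∀ x : K', (s.σ ^ l) x = x) (hp : l.Prime)
    (hne : ¬ T5.PlaceRel s (w 0) (w 0)) {a b : ℕ} (ha : a < l) (hb : b < l)
    (hab : w a = w b) : a = b := by
  by_contra hne'
  wlog hlt : a < b generalizing a b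
  · exact this hb ha hab.symm (Ne.symm hne') (lt_of_le_of_ne (not_lt.1 hlt) (Ne.symm hne'))
  apply hne
  set I := (w b).asIdeal with hI
  have h1 : (sigI379 s.σ)^[b - a] I = I := by
    have := orbit_iter379 s w hw a (b - a)
    rw [Nat.add_sub_cancel' hlt.le] at this
    rw [this, hab]
  have h2 : (sigI379 s.σ)^[l] I = I := sigI_period379 s.σ l hl I
  have hcop : Nat.Coprime (b - a) l := by
    apply Nat.Coprime.symm
    rw [Nat.Prime.coprime_iff_not_dvd hp]
    exact Nat.not_dvd_of_pos_of_lt (Nat.sub_pos_of_lt hlt) (lt_of_le_of_lt (Nat.sub_le _ _) hb)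
  have h3 : Function.IsPeriodicPt (sigI379 s.σ) ((b - a).gcd l) I :=
    Function.IsPeriodicPt.gcd h1 h2
  rw [hcop.gcd_eq_one] at h3
  have h4 : sigI379 s.σ I = I := h3
  have h5 : (w 0).asIdeal = I := by
    have := orbit_iter379 s w hw 0 b
    rw [zero_add] at this
    rw [← this]
    exact Function.iterate_fixed h4 b
  rw [placeRel_iff379, h5]
  exact h4.symm

theorem orbit_surj379 (l : ℕ) (hl : ∀ x : K', (s.σ ^ l) x = x) (hpos : 0 < l)
    (w' : HeightOneSpectrum (𝓞 K')) (n : ℕ)
    (h : w'.asIdeal = (sigI379 s.σ)^[n] (w 0).asIdeal) : ∃ m < l, w' = w m := by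
  refine ⟨(n * (l - 1)) % l, Nat.mod_lt _ hpos, ?_⟩
  rw [← orbit_mod379 s w hw l hl]
  apply HeightOneSpectrum.ext
  have h1 : (sigI379 s.σ)^[n * (l - 1)] (w (n * (l - 1))).asIdeal = (w 0).asIdeal := by
    have := orbit_iter379 s w hw 0 (n * (l - 1))
    rwa [zero_add] at this
  have h2 : (sigI379 s.σ)^[n * (l - 1)] w'.asIdeal = (w 0).asIdeal := by
    rw [h, ← Function.iterate_add_apply]
    have e : n * (l - 1) + n = n * l := by
      have : l - 1 + 1 = l := Nat.sub_add_cancel hpos
      calc n * (l - 1) + n = n * (l - 1 + 1) := by ring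
        _ = n * l := by rw [this]
    rw [e]
    have hper : Function.IsPeriodicPt (sigI379 s.σ) l (w 0).asIdeal :=
      sigI_period379 s.σ l hl _
    exact hper.const_mul n
  exact (sigI_injective379 s.σ).iterate _ (h2.trans h1.symm)

/-! ## 6. The transport to the completion at `w 0` -/

theorem exists_transport379 :
    ∃ C : ∀ n, (w n).adicCompletion K' ≃+* (w 0).adicCompletion K',
      (∀ a, C 0 a = a) ∧
        ∀ n a, C (n + 1) a = C n (sloc379 s (w (n + 1)) (w n) (hw n) a) :=
  ⟨fun n => Nat.rec (motive := fun n => (w n).adicCompletion K' ≃+* (w 0).adicCompletion K')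
      (RingEquiv.refl _) (fun n Cn => (sloc379 s (w (n + 1)) (w n) (hw n)).trans Cn) n,
    fun _ => rfl, fun _ _ => rfl⟩

variable (C : ∀ n, (w n).adicCompletion K' ≃+* (w 0).adicCompletion K')
  (hC0 : ∀ a, C 0 a = a)
  (hCS : ∀ n a, C (n + 1) a = C n (sloc379 s (w (n + 1)) (w n) (hw n) a))

include hC0 hCS

theorem transport_val379 (n : ℕ) (a : (w n).adicCompletion K') :
    Valued.v (C n a) = Valued.v a := by
  induction n with
  | zero => rw [hC0]
  | succ n ih => rw [hCS, ih, sloc_val379]

theorem transport_rat379 (n : ℕ) (y : K') :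
    C n (algebraMap K' ((w n).adicCompletion K') y)
      = algebraMap K' ((w 0).adicCompletion K') ((s.σ ^ n) y) := by
  induction n generalizing y with
  | zero => rw [hC0, pow_zero]; rfl
  | succ n ih => rw [hCS, sloc_rat379, ih, pow_succ, RingAut.mul_apply]

/-- The component at `w n`, transported to `GL₂` of the completion at `w 0`. -/
def xn379 (n : ℕ) : G K' →* GL (Fin 2) ((w 0).adicCompletion K') :=
  (Matrix.GeneralLinearGroup.map
    (C n : (w n).adicCompletion K' →+* (w 0).adicCompletion K')).comp (finGL305 (w n))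

omit hw hC0 hCS in
theorem xn_apply379 (n : ℕ) (g : G K') :
    xn379 w C n g = Matrix.GeneralLinearGroup.map
      (C n : (w n).adicCompletion K' →+* (w 0).adicCompletion K') (finGL305 (w n) g) := rfl

theorem xn_onG379 (n : ℕ) (g : G K') :
    xn379 w C n (s.onG g) = xn379 w C (n + 1) g := by
  rw [xn_apply379, xn_apply379, finGL_onG_sloc379 s (w (n + 1)) (w n) (hw n)]
  apply Matrix.GeneralLinearGroup.ext
  intro a b
  exact (hCS n _).symm

theorem xn_wrap379 (l : ℕ) (hl : ∀ x : K', (s.σ ^ l) x = x) (g : G K') :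
    xn379 w C l g = xn379 w C 0 g := by
  rw [xn_apply379, xn_apply379]
  have h0 : w l = w 0 := by
    have := orbit_period379 s w hw l hl 0
    rwa [zero_add] at this
  refine map_congr_place379 (w l) (w 0) h0 (C l) (C 0)
    (transport_val379 s w hw C hC0 hCS l) (transport_val379 s w hw C hC0 hCS 0) ?_ g
  intro y
  rw [transport_rat379 s w hw C hC0 hCS l, transport_rat379 s w hw C hC0 hCS 0, hl, pow_zero]
  rfl

theorem xn_inU379 (n : ℕ) (g : G K') :
    T6.InU 0 (xn379 w C n g) ↔ T6.InU 0 (finGL305 (w n) g) := by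
  rw [xn_apply379]
  exact H388.inU_map_iff388 (C n : (w n).adicCompletion K' →+* (w 0).adicCompletion K')
    (transport_val379 s w hw C hC0 hCS n) 0 (finGL305 (w n) g)

omit hw hC0 hCS in
theorem xn_symm379 (n : ℕ) (t : GL (Fin 2) ((w 0).adicCompletion K')) (g : G K')
    (h : finGL305 (w n) g = Matrix.GeneralLinearGroup.map
      ((C n).symm : (w 0).adicCompletion K' →+* (w n).adicCompletion K') t) :
    xn379 w C n g = t := by
  rw [xn_apply379, h]
  apply Matrix.GeneralLinearGroup.ext
  intro a b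
  exact (C n).apply_symm_apply _

omit hw hC0 hCS in
theorem xn_injective379 (n : ℕ) {g h : G K'} (e : xn379 w C n g = xn379 w C n h) :
    finGL305 (w n) g = finGL305 (w n) h := by
  apply Matrix.GeneralLinearGroup.ext
  intro a b
  have h1 := congrArg (fun u : GL (Fin 2) ((w 0).adicCompletion K') =>
    (u : Matrix (Fin 2) (Fin 2) ((w 0).adicCompletion K')) a b) e
  exact (C n).injective h1

end Orbit

/-! ## 7. The element with prescribed components on an orbit -/

/-- The element with the components `τ n` at the places `w n`, `n < N`, and `1` elsewhere. -/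
def prodLoc379 (w : ℕ → HeightOneSpectrum (𝓞 K'))
    (τ : ∀ n, GL (Fin 2) ((w n).adicCompletion K')) : ℕ → G K'
  | 0 => 1
  | N + 1 => prodLoc379 w τ N * H129.locFin129 (w N) (τ N)

theorem prodLoc_inf379 (w : ℕ → HeightOneSpectrum (𝓞 K'))
    (τ : ∀ n, GL (Fin 2) ((w n).adicCompletion K')) (N : ℕ) (u : InfinitePlace K') :
    H129.infCompHom129 u (prodLoc379 w τ N) = 1 := by
  induction N with
  | zero => exact map_one _
  | succ N ih =>
    show H129.infCompHom129 u (prodLoc379 w τ N * H129.locFin129 (w N) (τ N)) = 1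
    rw [map_mul, ih, H129.infCompHom129_locFin129, mul_one]

theorem prodLoc_off379 (w : ℕ → HeightOneSpectrum (𝓞 K'))
    (τ : ∀ n, GL (Fin 2) ((w n).adicCompletion K')) (N : ℕ) (u : HeightOneSpectrum (𝓞 K'))
    (hu : ∀ n < N, u ≠ w n) : finGL305 u (prodLoc379 w τ N) = 1 := by
  induction N with
  | zero => exact map_one _
  | succ N ih =>
    show finGL305 u (prodLoc379 w τ N * H129.locFin129 (w N) (τ N)) = 1
    rw [map_mul, ih (fun n hn => hu n (Nat.lt_succ_of_lt hn)), one_mul]
    exact H129.finCompHom129_locFin129_of_ne (w N) (τ N) (hu N (Nat.lt_succ_self N))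

theorem prodLoc_on379 (w : ℕ → HeightOneSpectrum (𝓞 K'))
    (τ : ∀ n, GL (Fin 2) ((w n).adicCompletion K')) (N : ℕ)
    (hinj : ∀ a b, a < N → b < N → w a = w b → a = b) (m : ℕ) (hm : m < N) :
    finGL305 (w m) (prodLoc379 w τ N) = τ m := by
  induction N with
  | zero => exact absurd hm (Nat.not_lt_zero m)
  | succ N ih =>
    show finGL305 (w m) (prodLoc379 w τ N * H129.locFin129 (w N) (τ N)) = τ m
    rw [map_mul]
    rcases Nat.lt_succ_iff_lt_or_eq.1 hm with h | h
    · have hne : w m ≠ w N := fun e =>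
        (Nat.ne_of_lt h) (hinj m N hm (Nat.lt_succ_self N) e)
      rw [ih (fun a b ha hb => hinj a b (Nat.lt_succ_of_lt ha) (Nat.lt_succ_of_lt hb)) h]
      have := H129.finCompHom129_locFin129_of_ne (w N) (τ N) hne
      rw [show finGL305 (w m) (H129.locFin129 (w N) (τ N)) = 1 from this, mul_one]
    · subst h
      have hoff : finGL305 (w m) (prodLoc379 w τ m) = 1 :=
        prodLoc_off379 w τ m (w m) (fun n hn e =>
          (Nat.ne_of_lt hn) (hinj n m (Nat.lt_succ_of_lt hn) (Nat.lt_succ_self m) e.symm))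
      rw [hoff, one_mul]
      exact H129.finCompHom129_locFin129 (w m) (τ m)

/-! ## 8. Membership in the twisted centraliser, by components -/

theorem onG_ratG379 (s : T5.AdelicAut K') (g : GL (Fin 2) K') :
    s.onG (T5.ratG g) = T5.ratG (s.onRat g) := by
  apply Matrix.GeneralLinearGroup.ext
  intro a b
  exact s.compat _

theorem mem_tA_iff379 (s : T5.AdelicAut K') (δ : GL (Fin 2) K') (t : G K') :
    t ∈ tA305 s δ ↔ t⁻¹ * T5.ratG δ * s.onG t = T5.ratG δ := Iff.rfl

/-- `t` is in the twisted centraliser if it is so componentwise on a set of places `P` closed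
under `σ⁻¹`, and trivial outside `P` and at the infinite places. -/
theorem mem_tA_of_comp379 (s : T5.AdelicAut K') (δ : GL (Fin 2) K') (t : G K')
    (P : HeightOneSpectrum (𝓞 K') → Prop)
    (hP : ∀ u u' : HeightOneSpectrum (𝓞 K'), T5.PlaceRel s u' u → P u' → P u)
    (hinf : ∀ u : InfinitePlace K', H129.infCompHom129 u t = 1)
    (hoff : ∀ u : HeightOneSpectrum (𝓞 K'), ¬ P u → finGL305 u t = 1)
    (hon : ∀ u : HeightOneSpectrum (𝓞 K'), P u →
      finGL305 u (t⁻¹ * T5.ratG δ * s.onG t) = finGL305 u (T5.ratG δ)) :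
    t ∈ tA305 s δ := by
  rw [mem_tA_iff379]
  apply H129.G_ext129
  · intro u
    rw [map_mul, map_mul, map_inv, hinf, infComp_onG_one379 s t hinf, inv_one, one_mul, mul_one]
  · intro u
    by_cases hu : P u
    · exact hon u hu
    · obtain ⟨u', hu'⟩ := exists_pre379 s u
      have h1 : finGL305 u' t = 1 := hoff u' (fun h => hu (hP u u' hu' h))
      have h2 : finGL305 u (s.onG t) = 1 := by
        rw [finGL_onG_sloc379 s u' u hu', h1, map_one]
      show finGL305 u (t⁻¹ * T5.ratG δ * s.onG t) = finGL305 u (T5.ratG δ)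
      rw [map_mul, map_mul, map_inv, hoff u hu, h2, inv_one, one_mul, mul_one]

/-! ## 9. The local step on an orbit of `l` places (split case) -/

theorem fin_succ_val379 {l : ℕ} [NeZero l] (j : Fin l) :
    (j + 1 : Fin l).val = (j.val + 1) % l := by
  rw [Fin.val_add, Fin.val_one', Nat.add_mod_mod]

theorem localStep_split379 (s : T5.AdelicAut K') (l : ℕ) [NeZero l]
    (hl : ∀ x : K', (s.σ ^ l) x = x)
    (w : ℕ → HeightOneSpectrum (𝓞 K')) (hw : ∀ n, T5.PlaceRel s (w (n + 1)) (w n))
    (hinj : ∀ a b, a < l → b < l → w a = w b → a = b)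
    (δ : GL (Fin 2) K') (hδ : ∀ n, T6.InU 0 (locG305 (w n) δ))
    (hd : Valued.v (T6.disc (locG305 (w 0) (s.normUpTo l δ))) = 1)
    (x : G K') (hx : ∀ n, T6.InU 0 (finGL305 (w n) (x⁻¹ * T5.ratG δ * s.onG x))) :
    ∃ t₀ : G K', t₀ ∈ tA305 s δ ∧
      (∀ u : HeightOneSpectrum (𝓞 K'), (∀ n < l, u ≠ w n) → finGL305 u t₀ = 1) ∧
      ∀ n < l, T6.InU 0 (finGL305 (w n) (t₀⁻¹ * x)) := by
  classical
  have hlpos : 0 < l := Nat.pos_of_ne_zero (NeZero.ne l)
  obtain ⟨C, hC0, hCS⟩ := exists_transport379 s w hw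
  -- wrap-around
  have hwrap : ∀ (g : G K') (j : Fin l),
      xn379 w C (j + 1 : Fin l).val g = xn379 w C (j.val + 1) g := by
    intro g j
    rw [fin_succ_val379]
    by_cases h : j.val + 1 < l
    · rw [Nat.mod_eq_of_lt h]
    · have e : j.val + 1 = l := le_antisymm j.isLt (not_lt.1 h)
      rw [e, Nat.mod_self, xn_wrap379 s w hw C hC0 hCS l hl]
  set X : Fin l → GL (Fin 2) ((w 0).adicCompletion K') := fun j => xn379 w C j.val x with hX
  set Δ : Fin l → GL (Fin 2) ((w 0).adicCompletion K') :=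
    fun j => xn379 w C j.val (T5.ratG δ) with hΔ
  have hconj : ∀ (g : G K') (j : Fin l),
      xn379 w C j.val (g⁻¹ * T5.ratG δ * s.onG g)
        = (xn379 w C j.val g)⁻¹ * Δ j * xn379 w C (j + 1 : Fin l).val g := by
    intro g j
    rw [map_mul, map_mul, map_inv, xn_onG379 s w hw C hC0 hCS, hwrap]
  have hΔU : ∀ j, T6.InU 0 (Δ j) := by
    intro j
    rw [hΔ]
    show T6.InU 0 (xn379 w C j.val (T5.ratG δ))
    rw [xn_inU379 s w hw C hC0 hCS, H941.finGL_ratG941]
    exact hδ j.val
  have hXU : ∀ j, T6.InU 0 ((X⁻¹ * Δ * T6.shiftHom l X) j) := by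
    intro j
    have e : (X⁻¹ * Δ * T6.shiftHom l X) j
        = xn379 w C j.val (x⁻¹ * T5.ratG δ * s.onG x) := by
      rw [hconj]
      rfl
    rw [e, xn_inU379 s w hw C hC0 hCS]
    exact hx j.val
  -- the norm
  have hnorm : ∀ (n : ℕ) (j : Fin l), T6.twN (T6.shiftHom l) n Δ j
      = xn379 w C j.val (T5.ratG (s.normUpTo n δ)) := by
    intro n
    induction n with
    | zero =>
      intro j
      show (1 : GL (Fin 2) ((w 0).adicCompletion K')) = xn379 w C j.val (T5.ratG 1)
      rw [map_one, map_one]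
    | succ n ih =>
      intro j
      show Δ j * T6.twN (T6.shiftHom l) n Δ (j + 1)
        = xn379 w C j.val (T5.ratG (δ * s.onRat (s.normUpTo n δ)))
      rw [ih, hwrap, ← xn_onG379 s w hw C hC0 hCS, onG_ratG379, map_mul, map_mul]
  have hdisc : Valued.v (T6.disc (T6.twN (T6.shiftHom l) l Δ 0)) = 1 := by
    rw [hnorm l 0]
    have e : xn379 w C (0 : Fin l).val (T5.ratG (s.normUpTo l δ))
        = locG305 (w 0) (s.normUpTo l δ) := by
      have h0 : (0 : Fin l).val = 0 := rfl
      rw [h0, xn_apply379, H941.finGL_ratG941]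
      apply Matrix.GeneralLinearGroup.ext
      intro a b
      exact hC0 _
    rw [e]
    exact hd
  obtain ⟨t, u, ht, hu, hXtu⟩ := H159.goodUnit_split159 Δ X hΔU hdisc hXU
  -- the element
  set τ : ∀ n, GL (Fin 2) ((w n).adicCompletion K') := fun n =>
    if h : n < l then Matrix.GeneralLinearGroup.map
      ((C n).symm : (w 0).adicCompletion K' →+* (w n).adicCompletion K') (t ⟨n, h⟩) else 1
    with hτ
  set t₀ : G K' := prodLoc379 w τ l with ht₀
  have hcomp : ∀ j : Fin l, xn379 w C j.val t₀ = t j := by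
    intro j
    apply xn_symm379
    rw [ht₀, prodLoc_on379 w τ l hinj j.val j.isLt, hτ]
    simp only [j.isLt, dite_true]
  have hoff : ∀ u : HeightOneSpectrum (𝓞 K'), (∀ n < l, u ≠ w n) → finGL305 u t₀ = 1 :=
    fun u hu => prodLoc_off379 w τ l u hu
  refine ⟨t₀, ?_, hoff, ?_⟩
  · -- membership
    refine mem_tA_of_comp379 s δ t₀ (fun u => ∃ n < l, u = w n) ?_
      (fun u => prodLoc_inf379 w τ l u) ?_ ?_
    · rintro u u' hrel ⟨n, hn, rfl⟩
      rcases Nat.eq_zero_or_pos n with h0 | hpos
      · subst h0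
        refine ⟨l - 1, Nat.sub_lt hlpos Nat.one_pos, ?_⟩
        have hper : w l = w 0 := by
          have := orbit_period379 s w hw l hl 0
          rwa [zero_add] at this
        have h1 : T5.PlaceRel s (w l) (w (l - 1)) := by
          have := hw (l - 1)
          rwa [Nat.sub_add_cancel hlpos] at this
        rw [hper] at h1
        exact placeRel_fun379 s hrel h1
      · refine ⟨n - 1, lt_of_le_of_lt (Nat.sub_le _ _) hn, ?_⟩
        have h1 : T5.PlaceRel s (w n) (w (n - 1)) := by
          have := hw (n - 1)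
          rwa [Nat.sub_add_cancel hpos] at this
        exact placeRel_fun379 s hrel h1
    · intro u hu
      apply hoff
      intro n hn e
      exact hu ⟨n, hn, e⟩
    · rintro u ⟨n, hn, rfl⟩
      apply xn_injective379 w C n
      have := hconj t₀ ⟨n, hn⟩
      rw [this, hcomp ⟨n, hn⟩, hcomp (⟨n, hn⟩ + 1)]
      exact congrFun ht ⟨n, hn⟩
  · intro n hn
    rw [← xn_inU379 s w hw C hC0 hCS, map_mul, map_inv]
    have h1 := hcomp ⟨n, hn⟩
    have h2 : xn379 w C n x = t ⟨n, hn⟩ * u ⟨n, hn⟩ := congrFun hXtu ⟨n, hn⟩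
    rw [show xn379 w C n t₀ = t ⟨n, hn⟩ from h1, h2, inv_mul_cancel_left]
    exact hu ⟨n, hn⟩

/-! ## Appendix: the equation lemmas of the definitions of this file are realised HERE -/

theorem eqns_realised_suppUpKit379 : True := by
  have _a1 := @sloc379.eq_1
  have _a2 := @sloc379.eq_def
  have _a3 := @sloc379.eq_unfold
  have _b1 := @sigI379.eq_1
  have _b2 := @sigI379.eq_def
  have _b3 := @sigI379.eq_unfold
  have _c1 := @orbit379.eq_1
  have _c2 := @orbit379.eq_2
  have _c3 := @orbit379.eq_def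
  have _c4 := @orbit379.eq_unfold
  have _d1 := @xn379.eq_1
  have _d2 := @xn379.eq_def
  have _d3 := @xn379.eq_unfold
  have _e1 := @prodLoc379.eq_1
  have _e2 := @prodLoc379.eq_2
  have _e3 := @prodLoc379.eq_def
  have _e4 := @prodLoc379.eq_unfold
  trivial

end Fermat.Agent.LT.T7.H379

end
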