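import Mathlib
import Fermat.Agent.LT.T7.H379.SuppUpKit
import Fermat.Agent.LT.T7.H159.GoodUnitTw
import Fermat.Agent.LT.T7.H555.LocEqInert

/-!
# Row LT, tower T7, node `UpFactC340`, LEAF UF.A2 `SuppUpC340` (cut of helper340, registry row
# 2746, helper379): PROVED, VERBATIM

OFF-MAIN.  No hole, nothing assumed.  ADDITIVE (suffix `379`).

    suppUpC379 K K' : H340.SuppUpC340 K K'

Statement of `T7/H340/UpFactSpec.lean` (helper340@4a08d18e4, sha256 04981afb): if `N δ = γ` is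
good outside `S`, `δ` is integral outside `S'`, the places outside `S` are unramified and
`x⁻¹ δ σ(x)` is in `GL₂(𝒪_w)` for `w ∉ S'`, then `x = t x'` with `t ∈ T_𝔸(δ)` and
`x'_w ∈ GL₂(𝒪_w)` for `w ∉ S'`.

## Proof

* INDUCTION on a finite set `B` of places of `K` containing the places under the non-integral
  places of `x` (`suppUp_aux379`, as helper941 `suppDown_aux941`); at `v₀ ∈ B \ S` the LOCAL STEP
  `localStep379`: there is `t₀ ∈ T_𝔸(δ)`, trivial outside the places over `v₀`, with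
  `(t₀⁻¹ x)_w ∈ GL₂(𝒪_w)` for all `w ∣ v₀`.
* LOCAL STEP, `σ w₀ = w₀` (`localStep_inert379`): `w₀` is the only place over `v₀` (the Galois
  group is generated by `σ` and permutes the places over `v₀` transitively: helper453
  `exists_gen453`, `exists_iterate_eq453`); `T6.InstExtC` gives the local extension datum, `e = 1`
  (helper388 `e_eq_one388`), the local automorphism of `SigmaLocC305` (helper558
  `sigmaLocC558`) is the one of the datum (density, `eq_of_rat379`); helper159 `goodUnit_up159`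
  (`FundLemmaC`, `OrbSumExC`, `NormClassC` from `T6Out`); `t₀ = locFin129 w₀ t` (helper129).
* LOCAL STEP, `σ w₀ ≠ w₀` (`localStep_split379` in `SuppUpKit.lean`): the orbit
  `w n = σ^{-n} w₀`, `n < l`, has `l` distinct places and is the set of the places over `v₀`; the
  completions at `w n` are transported to the completion `k` at `w 0` by the local isomorphisms
  of `SigmaLocC305` (`xn379`; the composite around the orbit is the identity: density); in these
  coordinates `σ` is the cyclic shift on `GL₂(k)^l` and helper159 `goodUnit_split159` applies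
  (NO identification with `K_{v₀}` is needed: `T6.InstSplitC` is not used); `t₀` is the product of
  the local embeddings (`prodLoc379`).
* The discriminant of `N δ = γ` is a unit at `w₀` (`disc_good379`: helper600 `locB600`).
* Membership in `T_𝔸(δ)` by components (`mem_tA_of_comp379`: helper129 `G_ext129`; the infinite
  components by `SigmaLocC305`).

No equation lemma of a foreign definition is realised here.  Hypotheses `D.l ≠ 2`, `TotCplx K`,
`T6.IsEll γ` of the Prop are not used.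
-/

set_option autoImplicit false
set_option linter.style.haveILetI false
set_option linter.unusedSectionVars false
set_option linter.unusedVariables false

open AutomorphicForm IsDedekindDomain NumberField
open scoped ComplexConjugate

noncomputable section

namespace Fermat.Agent.LT.T7.H379

open Fermat.Agent.LT Fermat.Agent.LT.H556 Fermat.Agent.LT.H556.A0 Fermat.Agent.LT.T7
open Fermat.Agent.LT.T7.H305 Fermat.Agent.LT.T7.H340

variable {K K' : Type} [Field K] [NumberField K] [Field K'] [NumberField K'] [Algebra K K']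

/-! ## 1. Good units upstairs -/

theorem disc_good379 (w₀ : HeightOneSpectrum (𝓞 K')) (γ : GL (Fin 2) K)
    (h : Valued.v (T6.disc (locG305 (H600.below600 K K' w₀) γ)) = 1) :
    Valued.v (T6.disc (locG305 w₀ (Matrix.GeneralLinearGroup.map (algebraMap K K') γ))) = 1 := by
  rw [H555.locG_base555 (H600.below600 K K' w₀) w₀ (H600.locB600 K K' w₀)
    (fun x => H600.locB600_algebraMap w₀ x) γ, H555.disc_map555, H600.valued_locB600, h, one_pow]

/-! ## 2. The places over `v₀` -/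

theorem fibre_unique379 (D : CompData K K') (hD : IsCompData D) (hcyc : IsCycExt K K' D.l)
    (w₀ : HeightOneSpectrum (𝓞 K')) (hfix : T5.PlaceRel D.s w₀ w₀)
    (w' : HeightOneSpectrum (𝓞 K'))
    (hb : H600.below600 K K' w' = H600.below600 K K' w₀) : w' = w₀ := by
  haveI := hcyc.galois
  obtain ⟨sA, hsA, hgen⟩ := H453.exists_gen453 D hD hcyc
  obtain ⟨n, hn⟩ := H453.exists_iterate_eq453 sA D.s.σ hsA hgen w₀ w' hb
  apply HeightOneSpectrum.ext
  rw [hn]
  have hfix' : (fun I : Ideal (𝓞 K') => Ideal.map (RingOfIntegers.mapRingEquiv D.s.σ) I)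
      w₀.asIdeal = w₀.asIdeal := hfix.symm
  exact Function.iterate_fixed hfix' n

theorem below_orbit379 (D : CompData K K') (hD : IsCompData D)
    (w₀ : HeightOneSpectrum (𝓞 K')) (n : ℕ) :
    H600.below600 K K' (orbit379 D.s w₀ n) = H600.below600 K K' w₀ := by
  induction n with
  | zero => rfl
  | succ n ih =>
    rw [← ih]
    exact (H453.below_map453 D hD (orbit379 D.s w₀ (n + 1)) (orbit379 D.s w₀ n)
      (orbit_succ379 D.s w₀ n)).symm

theorem fibre_orbit379 (D : CompData K K') (hD : IsCompData D) (hcyc : IsCycExt K K' D.l)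
    (w₀ : HeightOneSpectrum (𝓞 K')) (w' : HeightOneSpectrum (𝓞 K'))
    (hb : H600.below600 K K' w' = H600.below600 K K' w₀) :
    ∃ m < D.l, w' = orbit379 D.s w₀ m := by
  haveI := hcyc.galois
  obtain ⟨sA, hsA, hgen⟩ := H453.exists_gen453 D hD hcyc
  obtain ⟨n, hn⟩ := H453.exists_iterate_eq453 sA D.s.σ hsA hgen w₀ w' hb
  exact orbit_surj379 D.s (orbit379 D.s w₀) (orbit_succ379 D.s w₀) D.l hD.cyc.pow_eq
    hcyc.prime.pos w' n hn

/-! ## 3. The local step: one place over `v₀` -/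

theorem localStep_inert379 (hT6 : T6.T6Out) (D : CompData K K') (hD : IsCompData D)
    (hcyc : IsCycExt K K' D.l) (w₀ : HeightOneSpectrum (𝓞 K'))
    (hfix : T5.PlaceRel D.s w₀ w₀)
    (hun : ∃ x : 𝓞 K, x ∈ (H600.below600 K K' w₀).asIdeal ∧
      algebraMap (𝓞 K) (𝓞 K') x ∉ w₀.asIdeal ^ 2)
    (δ : GL (Fin 2) K') (γ : GL (Fin 2) K)
    (hN : D.s.normUpTo D.l δ = Matrix.GeneralLinearGroup.map (algebraMap K K') γ)
    (hγd : Valued.v (T6.disc (locG305 (H600.below600 K K' w₀) γ)) = 1)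
    (hδ : T6.InU 0 (locG305 w₀ δ))
    (x : G K') (hx : T6.InU 0 (finGL305 w₀ (x⁻¹ * T5.ratG δ * D.s.onG x))) :
    ∃ t₀ : G K', t₀ ∈ tA305 D.s δ ∧
      (∀ u : HeightOneSpectrum (𝓞 K'), u ≠ w₀ → finGL305 u t₀ = 1) ∧
      T6.InU 0 (finGL305 w₀ (t₀⁻¹ * x)) := by
  obtain ⟨hNC, -, -, -, -, hIL, hIE, -, hEx, -, -, -, -, hFL, -⟩ := hT6
  haveI := hcyc.galois
  obtain ⟨sA, hsA, hgen⟩ := H453.exists_gen453 D hD hcyc
  have huniq : ∀ w' : HeightOneSpectrum (𝓞 K'),
      (∀ x : 𝓞 K, x ∈ (H600.below600 K K' w₀).asIdeal →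
        algebraMap (𝓞 K) (𝓞 K') x ∈ w'.asIdeal) → w' = w₀ := by
    intro w' hw'
    have hover : PlaceOver K K' (H600.below600 K K' w₀) w' := H388.placeOver_of_le388 hw'
    exact fibre_unique379 D hD hcyc w₀ hfix w'
      ((H600.placeOver_iff600 _ w').1 hover).symm
  obtain ⟨e₀, i₀, sw₀, hi₀, hsw₀, hext₀, hN₀⟩ :=
    hIE K K' sA hgen (hcyc.degree ▸ hcyc.prime) (H600.below600 K K' w₀) w₀
      (fun x => H600.mem_below600 w₀ x) huniq
  have he : e₀ = 1 := H388.e_eq_one388 hun hext₀.e_pos i₀ hi₀ hext₀.val_i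
  subst he
  rw [hcyc.degree] at hext₀ hN₀
  rw [Nat.div_one] at hN₀
  have hsw₀' : ∀ y : K', sw₀ (algebraMap K' (w₀.adicCompletion K') y)
      = algebraMap K' (w₀.adicCompletion K') (D.s.σ y) := fun y => by rw [hsw₀, hsA]
  have hsl : ∀ a, sloc379 D.s w₀ w₀ hfix a = sw₀ a :=
    eq_of_rat379 (sloc379 D.s w₀ w₀ hfix : w₀.adicCompletion K' →+* w₀.adicCompletion K')
      (sw₀ : w₀.adicCompletion K' →+* w₀.adicCompletion K')
      (sloc_val379 D.s w₀ w₀ hfix) hext₀.val_s
      (fun y => (sloc_rat379 D.s w₀ w₀ hfix y).trans (hsw₀' y).symm)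
  have hon : ∀ g : G K', finGL305 w₀ (D.s.onG g) = T6.glAut sw₀ (finGL305 w₀ g) := by
    intro g
    rw [finGL_onG_sloc379 D.s w₀ w₀ hfix]
    apply Matrix.GeneralLinearGroup.ext
    intro a b
    exact hsl _
  have hk := hIL K (H600.below600 K K' w₀)
  have hk' : T6.IsLocalField (w₀.adicCompletion K')
      (Ideal.absNorm (H600.below600 K K' w₀).asIdeal ^ D.l) := by
    have := hIL K' w₀
    rwa [hN₀] at this
  have hd' : Valued.v (T6.disc (T6.twNorm sw₀ D.l (locG305 w₀ δ))) = 1 := by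
    rw [← H555.locG_normUpTo555 D.s w₀ sw₀ hsw₀', hN]
    exact disc_good379 w₀ γ hγd
  have hx' : T6.InU 0 ((finGL305 w₀ x)⁻¹ * locG305 w₀ δ * T6.glAut sw₀ (finGL305 w₀ x)) := by
    have := hx
    rwa [map_mul, map_mul, map_inv, H941.finGL_ratG941, hon] at this
  obtain ⟨t, u, ht, hu, hxtu⟩ := H159.goodUnit_up159 hFL hEx hNC
    (Ideal.absNorm (H600.below600 K K' w₀).asIdeal) D.l i₀ sw₀ hk hk' hext₀ hcyc.prime
    (locG305 w₀ δ) hδ hd' (finGL305 w₀ x) hx'
  have hcomp : finGL305 w₀ (H129.locFin129 w₀ t) = t := H129.finCompHom129_locFin129 w₀ t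
  refine ⟨H129.locFin129 w₀ t, ?_,
    fun u hu => H129.finCompHom129_locFin129_of_ne w₀ t hu, ?_⟩
  · refine mem_tA_of_comp379 D.s δ _ (fun u => u = w₀) ?_
      (fun u => H129.infCompHom129_locFin129 w₀ t u)
      (fun u hu => H129.finCompHom129_locFin129_of_ne w₀ t hu) ?_
    · rintro u u' hrel rfl
      exact placeRel_fun379 D.s hrel hfix
    · rintro u rfl
      rw [map_mul, map_mul, map_inv, hon, H941.finGL_ratG941, hcomp]
      exact ht
  · rw [map_mul, map_inv, hcomp, hxtu, inv_mul_cancel_left]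
    exact hu

/-! ## 4. The local step at a place `v₀` of `K` -/

theorem localStep379 (hT6 : T6.T6Out) (D : CompData K K') (hD : IsCompData D)
    (hcyc : IsCycExt K K' D.l) (v₀ : HeightOneSpectrum (𝓞 K))
    (hun : ∀ w : HeightOneSpectrum (𝓞 K'), PlaceOver K K' v₀ w →
      ∃ x : 𝓞 K, x ∈ v₀.asIdeal ∧ algebraMap (𝓞 K) (𝓞 K') x ∉ w.asIdeal ^ 2)
    (δ : GL (Fin 2) K') (γ : GL (Fin 2) K)
    (hN : D.s.normUpTo D.l δ = Matrix.GeneralLinearGroup.map (algebraMap K K') γ)
    (hγd : Valued.v (T6.disc (locG305 v₀ γ)) = 1)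
    (hδ : ∀ w : HeightOneSpectrum (𝓞 K'), PlaceOver K K' v₀ w → T6.InU 0 (locG305 w δ))
    (x : G K')
    (hx : ∀ w : HeightOneSpectrum (𝓞 K'), PlaceOver K K' v₀ w →
      T6.InU 0 (finGL305 w (x⁻¹ * T5.ratG δ * D.s.onG x))) :
    ∃ t₀ : G K', t₀ ∈ tA305 D.s δ ∧
      (∀ u : HeightOneSpectrum (𝓞 K'), ¬ PlaceOver K K' v₀ u → finGL305 u t₀ = 1) ∧
      ∀ u : HeightOneSpectrum (𝓞 K'), PlaceOver K K' v₀ u →
        T6.InU 0 (finGL305 u (t₀⁻¹ * x)) := by
  obtain ⟨w₀, hw₀⟩ := H453.exists_below_eq453 (K' := K') v₀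
  subst hw₀
  have hover : ∀ u : HeightOneSpectrum (𝓞 K'),
      PlaceOver K K' (H600.below600 K K' w₀) u ↔
        H600.below600 K K' u = H600.below600 K K' w₀ := fun u =>
    (H600.placeOver_iff600 _ u).trans eq_comm
  have hw₀o : PlaceOver K K' (H600.below600 K K' w₀) w₀ := (hover w₀).2 rfl
  by_cases hfix : T5.PlaceRel D.s w₀ w₀
  · obtain ⟨t₀, ht₀, hoff, hon⟩ := localStep_inert379 hT6 D hD hcyc w₀ hfix (hun w₀ hw₀o) δ γ hN
      hγd (hδ w₀ hw₀o) x (hx w₀ hw₀o)
    refine ⟨t₀, ht₀, fun u hu => hoff u (fun e => hu (e ▸ hw₀o)), fun u hu => ?_⟩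
    have e : u = w₀ := fibre_unique379 D hD hcyc w₀ hfix u ((hover u).1 hu)
    rw [e]
    exact hon
  · haveI : NeZero D.l := ⟨hcyc.prime.ne_zero⟩
    have hwo : ∀ n, PlaceOver K K' (H600.below600 K K' w₀) (orbit379 D.s w₀ n) :=
      fun n => (hover _).2 (below_orbit379 D hD w₀ n)
    have hinj : ∀ a b, a < D.l → b < D.l → orbit379 D.s w₀ a = orbit379 D.s w₀ b → a = b :=
      fun a b ha hb hab => orbit_inj379 D.s (orbit379 D.s w₀) (orbit_succ379 D.s w₀) D.l
        hD.cyc.pow_eq hcyc.prime hfix ha hb hab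
    have hd : Valued.v (T6.disc (locG305 (orbit379 D.s w₀ 0) (D.s.normUpTo D.l δ))) = 1 := by
      rw [hN]
      exact disc_good379 w₀ γ hγd
    obtain ⟨t₀, ht₀, hoff, hon⟩ := localStep_split379 D.s D.l hD.cyc.pow_eq (orbit379 D.s w₀)
      (orbit_succ379 D.s w₀) hinj δ (fun n => hδ _ (hwo n)) hd x (fun n => hx _ (hwo n))
    refine ⟨t₀, ht₀, fun u hu => hoff u (fun n _ e => hu (e ▸ hwo n)), fun u hu => ?_⟩
    obtain ⟨m, hm, e⟩ := fibre_orbit379 D hD hcyc w₀ u ((hover u).1 hu)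
    rw [e]
    exact hon m hm

/-! ## 5. The induction on the places of `K` -/

theorem suppUp_aux379 (hT6 : T6.T6Out) (D : CompData K K') (hD : IsCompData D)
    (hcyc : IsCycExt K K' D.l) (T₀ : Finset (HeightOneSpectrum (𝓞 K)))
    (hunr : UnramOut305 (K' := K') T₀)
    (S : Finset (HeightOneSpectrum (𝓞 K))) (S' : Finset (HeightOneSpectrum (𝓞 K')))
    (hT₀S : T₀ ⊆ S) (hSS' : IsOver305 S S')
    (δ : GL (Fin 2) K') (γ : GL (Fin 2) K)
    (hN : D.s.normUpTo D.l δ = Matrix.GeneralLinearGroup.map (algebraMap K K') γ)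
    (hγ : GoodOut305 S γ) (hδ : IntOut305 S' δ) (B : Finset (HeightOneSpectrum (𝓞 K))) :
    ∀ x : G K',
      (∀ w : HeightOneSpectrum (𝓞 K'), w ∉ S' →
        T6.InU 0 (finGL305 w (x⁻¹ * T5.ratG δ * D.s.onG x))) →
      (∀ w : HeightOneSpectrum (𝓞 K'), w ∉ S' → H600.below600 K K' w ∉ B →
        T6.InU 0 (finGL305 w x)) →
      ∃ t : G K', t ∈ tA305 D.s δ ∧
        ∀ w : HeightOneSpectrum (𝓞 K'), w ∉ S' → T6.InU 0 (finGL305 w (t⁻¹ * x)) := by
  classical
  have hbel : ∀ w : HeightOneSpectrum (𝓞 K'), PlaceOver K K' (H600.below600 K K' w) w :=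
    fun w => (H600.placeOver_iff600 _ w).2 rfl
  induction B using Finset.induction_on with
  | empty =>
    intro x _ hx
    refine ⟨1, Subgroup.one_mem _, fun w hw => ?_⟩
    rw [inv_one, one_mul]
    exact hx w hw (Finset.notMem_empty _)
  | insert v₀ B' hv₀ ih =>
    intro x hconj hx
    by_cases hS : v₀ ∈ S
    · apply ih x hconj
      intro w hw hwB
      apply hx w hw
      rw [Finset.mem_insert]
      rintro (h | h)
      · apply hw
        rw [H388.mem_over_iff388 hSS' (hbel w), h]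
        exact hS
      · exact hwB h
    · have hout : ∀ w : HeightOneSpectrum (𝓞 K'), PlaceOver K K' v₀ w → w ∉ S' :=
        fun w hw h => hS ((H388.mem_over_iff388 hSS' hw).1 h)
      obtain ⟨t₀, ht₀, hoff, hon⟩ := localStep379 hT6 D hD hcyc v₀
        (fun w hw => hunr v₀ (fun h => hS (hT₀S h)) w hw) δ γ hN (hγ v₀ hS).2
        (fun w hw => hδ w (hout w hw)) x (fun w hw => hconj w (hout w hw))
      have hcent : t₀⁻¹ * T5.ratG δ * D.s.onG t₀ = T5.ratG δ := (mem_tA_iff379 D.s δ t₀).1 ht₀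
      have e1 : t₀ * T5.ratG δ * (D.s.onG t₀)⁻¹ = T5.ratG δ := by
        calc t₀ * T5.ratG δ * (D.s.onG t₀)⁻¹
            = t₀ * (t₀⁻¹ * T5.ratG δ * D.s.onG t₀) * (D.s.onG t₀)⁻¹ := by rw [hcent]
          _ = T5.ratG δ := by group
      have e2 : (t₀⁻¹ * x)⁻¹ * T5.ratG δ * D.s.onG (t₀⁻¹ * x)
          = x⁻¹ * T5.ratG δ * D.s.onG x := by
        calc (t₀⁻¹ * x)⁻¹ * T5.ratG δ * D.s.onG (t₀⁻¹ * x)
            = x⁻¹ * (t₀ * T5.ratG δ * (D.s.onG t₀)⁻¹) * D.s.onG x := by
              rw [map_mul, map_inv]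
              group
          _ = x⁻¹ * T5.ratG δ * D.s.onG x := by rw [e1]
      have h1 : ∀ w : HeightOneSpectrum (𝓞 K'), w ∉ S' →
          T6.InU 0 (finGL305 w ((t₀⁻¹ * x)⁻¹ * T5.ratG δ * D.s.onG (t₀⁻¹ * x))) := by
        intro w hw
        rw [e2]
        exact hconj w hw
      have h2 : ∀ w : HeightOneSpectrum (𝓞 K'), w ∉ S' → H600.below600 K K' w ∉ B' →
          T6.InU 0 (finGL305 w (t₀⁻¹ * x)) := by
        intro w hw hwB
        by_cases hwv : PlaceOver K K' v₀ w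
        · exact hon w hwv
        · rw [map_mul, map_inv, hoff w hwv, inv_one, one_mul]
          apply hx w hw
          rw [Finset.mem_insert]
          rintro (h | h)
          · exact hwv ((H600.placeOver_iff600 v₀ w).2 h.symm)
          · exact hwB h
      obtain ⟨t', ht', hout'⟩ := ih (t₀⁻¹ * x) h1 h2
      refine ⟨t₀ * t', Subgroup.mul_mem _ ht₀ ht', fun w hw => ?_⟩
      have e : (t₀ * t')⁻¹ * x = t'⁻¹ * (t₀⁻¹ * x) := by group
      rw [e]
      exact hout' w hw

/-! ## 6. The leaf -/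

/-- **LEAF UF.A2 = SUPP-UP** (`H340.SuppUpC340`), VERBATIM. -/
theorem suppUpC379 (K K' : Type) [Field K] [NumberField K] [Field K'] [NumberField K']
    [Algebra K K'] : SuppUpC340 K K' := by
  intro hT6 D hD hcyc _ _ T₀ hunr S S' hT₀S hSS' δ γ _ hN hγ hδ x hx
  classical
  obtain ⟨t, ht, hout⟩ := suppUp_aux379 hT6 D hD hcyc T₀ hunr S S' hT₀S hSS' δ γ hN hγ hδ
    ((H941.finite_nonint941 x).toFinset.image (H600.below600 K K')) x
    ((H941.outT_iff941 S' _).1 hx)
    (fun w _ hwB => by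
      by_contra h
      exact hwB (Finset.mem_image.2 ⟨w, (Set.Finite.mem_toFinset _).2 h, rfl⟩))
  exact ⟨t, ht, (H941.outT_iff941 S' _).2 hout⟩

end Fermat.Agent.LT.T7.H379

end
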