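import Mathlib
import Fermat.Agent.LT.T7.H913.CutOnUpQSpec
import Fermat.Agent.LT.T7.H379.SuppUp

/-!
# Row LT, tower T7, quadratic step, node `H1U.CutOnUpQC`, LEAF CU.1 `SuppUpQC913`
# (cut of helper913, registry row 2849; helper379, SPARE): PROVED, VERBATIM

OFF-MAIN.  No hole, nothing assumed.  ADDITIVE (suffix `379`).

    suppUpQC379 (F) : H913.SuppUpQC913 F

Statement of `T7/H913/CutOnUpQSpec.lean` (helper913@3b891b744, sha256 05469d69).  The proof of
the cubic leaf `H340.SuppUpC340` (`SuppUp.lean`: `suppUp_aux379`) uses neither the degree nor the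
infinite places: it is applied to `K = ℚ`, `K' = F` AS IT IS.
-/

set_option autoImplicit false

open AutomorphicForm IsDedekindDomain NumberField

noncomputable section

namespace Fermat.Agent.LT.T7.H379

open Fermat.Agent.LT Fermat.Agent.LT.H556 Fermat.Agent.LT.H556.A0 Fermat.Agent.LT.T7
open Fermat.Agent.LT.T7.H305

/-- **LEAF CU.1 = SUPP-UP over `ℚ`** (`H913.SuppUpQC913`), VERBATIM. -/
theorem suppUpQC379 (F : Type) [Field F] [NumberField F] : H913.SuppUpQC913 F := by
  intro hT6 _ D hD hcyc _ T₀ hunr S S' hT₀S hSS' δ γ _ hN hγ hδ x hx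
  classical
  obtain ⟨t, ht, hout⟩ := suppUp_aux379 hT6 D hD hcyc T₀ hunr S S' hT₀S hSS' δ γ hN hγ hδ
    ((H941.finite_nonint941 x).toFinset.image (H600.below600 ℚ F)) x
    ((H941.outT_iff941 S' _).1 hx)
    (fun w _ hwB => by
      by_contra h
      exact hwB (Finset.mem_image.2 ⟨w, (Set.Finite.mem_toFinset _).2 h, rfl⟩))
  exact ⟨t, ht, (H941.outT_iff941 S' _).2 hout⟩

end Fermat.Agent.LT.T7.H379

end
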